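/-
S15, route W (report 339), block H (helper32): `GQ`-stable subgroups of an ambient `GQ`-module `J` as `GQ`-modules,
steps in "scalar form" (`IsStepA`) and their conversion to `Sel.IsStep`.

Everything in block H lives in a fixed ambient abelian group `J` with an action of `GQ` (in the application
`J = JZero N`); the finite modules `V`, `V'` fed to Theorem D / Cor D' are the subtypes `↥W.S`, `W : GSub J`.
-/
import Fermat.Agent.S15.Sel.Defs

set_option autoImplicit false
set_option linter.unusedSectionVars false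

noncomputable section

namespace Fermat.Agent.S15.H

open Fermat.Agent.S15.Sel

/-- a bundled `GQ`-stable subgroup. -/
structure GSub (J : Type*) [AddCommGroup J] [DistribMulAction GQ J] where
  S : AddSubgroup J
  st : GStable S

variable {J : Type*} [AddCommGroup J] [DistribMulAction GQ J]

instance GSub.instAct (W : GSub J) : DistribMulAction GQ W.S where
  smul σ x := ⟨σ • (x : J), W.st σ x x.2⟩
  one_smul x := Subtype.ext (one_smul _ _)
  mul_smul σ τ x := Subtype.ext (mul_smul _ _ _)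
  smul_zero σ := Subtype.ext (smul_zero _)
  smul_add σ x y := Subtype.ext (smul_add _ _ _)

@[simp] theorem GSub.coe_smul (W : GSub J) (σ : GQ) (x : W.S) :
    ((σ • x : W.S) : J) = σ • (x : J) := rfl

/-- `σ` acts on the `r`-th roots of unity as the `a`-th power. -/
def ActsMu (r : ℕ) (σ : GQ) (a : ℕ) : Prop := ∀ ζ : Qb, ζ ^ r = 1 → σ ζ = ζ ^ a

/-- a step of the flag, in scalar form: `W' / W` has order `r` and `GQ` acts on it trivially or through the cyclotomic
character mod `r`. -/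
structure IsStepA (r : ℕ) (W W' : AddSubgroup J) : Prop where
  le : W ≤ W'
  idx : W.relIndex W' = r
  type : (∀ σ : GQ, ∀ x ∈ W', σ • x - x ∈ W) ∨
    (∀ (σ : GQ) (a : ℕ), ActsMu r σ a → ∀ x ∈ W', σ • x - a • x ∈ W)

/-- LEAF H-G1.  Every `σ` acts on `μ_r` as some power.
Proof: `Qb` is algebraically closed of characteristic `0`, so there is a primitive `r`-th root of unity `ζ₀`
(`IsAlgClosed`/`HasEnoughRootsOfUnity`, or `IsCyclotomicExtension`; e.g. `Complex`-free:
`(IsAlgClosed.exists_... )`, `rootsOfUnity` is cyclic: `rootsOfUnity.isCyclic`).  `σ ζ₀` is an `r`-th root of unity, so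
`σ ζ₀ = ζ₀ ^ a` (`IsPrimitiveRoot.eq_pow_of_pow_eq_one`); every `ζ` with `ζ ^ r = 1` is `ζ₀ ^ i`, so `σ ζ = ζ ^ a`. -/
theorem exists_actsMu {r : ℕ} (hr : r ≠ 0) (σ : GQ) : ∃ a : ℕ, ActsMu r σ a := by
  have : NeZero (r : Qb) := ⟨Nat.cast_ne_zero.2 hr⟩
  have : NeZero r := ⟨hr⟩
  obtain ⟨ζ₀, h₀⟩ := HasEnoughRootsOfUnity.exists_primitiveRoot Qb r
  have h1 : (σ ζ₀) ^ r = 1 := by rw [← map_pow, h₀.pow_eq_one, map_one]
  obtain ⟨a, -, ha⟩ := h₀.eq_pow_of_pow_eq_one h1
  refine ⟨a, fun ζ hζ => ?_⟩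
  obtain ⟨i, -, rfl⟩ := h₀.eq_pow_of_pow_eq_one hζ
  rw [map_pow, ← ha, ← pow_mul, ← pow_mul, mul_comm]

/-- LEAF H-G2.  `r • x ∈ W` for `x ∈ W'` when `W ≤ W'` has relative index `r`.
(the quotient `W' ⧸ W.addSubgroupOf W'` has cardinality `r`; `card_nsmul_eq_zero'`-type lemma,
`AddSubgroup.relIndex`, `AddSubgroup.index_eq_card`, `QuotientAddGroup.eq_zero_iff`.) -/
theorem nsmul_mem_of_relIndex {r : ℕ} {W W' : AddSubgroup J} (h : W.relIndex W' = r)
    {x : J} (hx : x ∈ W') : r • x ∈ W := by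
  have h1 := AddSubgroup.nsmul_index_mem (W.addSubgroupOf W') (⟨x, hx⟩ : W')
  rw [← AddSubgroup.relIndex, h, AddSubgroup.mem_addSubgroupOf] at h1
  exact h1

/-- LEAF H-G3.  Conversion of a step to `Sel.IsStep` on the subtype.
`le`: monotonicity of `addSubgroupOf`.  `idx`: `AddSubgroup.relIndex` of the two `addSubgroupOf` equals `W.relIndex W'`
because `W ≤ W' ≤ V.S` (unfold `relIndex`; `AddSubgroup.addSubgroupOf` of `addSubgroupOf`; or use the equivalence
`W'.addSubgroupOf V.S ≃+ W'`).  `type`: first alternative is immediate.  Second: given `σ`, `ψ`, `x`, take `a` from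
`exists_actsMu`; `σ • x = a • x + w`, `w ∈ W`, so `ψ (σ • x) = ψ x ^ a`; `ψ x ^ r = ψ (r • x) = 1` by
`nsmul_mem_of_relIndex`; so `σ (ψ x) = ψ x ^ a`. -/
theorem IsStepA.toStep (V : GSub J) {r : ℕ} (hr : r ≠ 0) {W W' : AddSubgroup J} (h : IsStepA r W W')
    (hW' : W' ≤ V.S) : IsStep r (W.addSubgroupOf V.S) (W'.addSubgroupOf V.S) := by
  refine ⟨fun x hx => h.le hx, ?_, ?_⟩
  · rw [AddSubgroup.relIndex_addSubgroupOf hW', h.idx]
  · rcases h.type with h1 | h1
    · left
      intro σ x hx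
      exact h1 σ x hx
    · right
      intro σ ψ hψ x hx
      obtain ⟨a, ha⟩ := exists_actsMu hr σ
      have hw : σ • x - a • x ∈ W.addSubgroupOf V.S := h1 σ a ha x hx
      have h2 : σ • x = (σ • x - a • x) + a • x := (sub_add_cancel _ _).symm
      have h3 : ψ x ^ r = 1 := by
        rw [← AddChar.map_nsmul_eq_pow]
        exact hψ _ (nsmul_mem_of_relIndex h.idx hx)
      rw [h2, AddChar.map_add_eq_mul, hψ _ hw, one_mul, AddChar.map_nsmul_eq_pow, ha _ h3]

/-- LEAF H-G4.  Conversion of a whole chain. (`F' i := (F i).addSubgroupOf V.S`; `F i ≤ F s` for `i ≤ s` by induction from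
`IsStepA.le`.) -/
theorem exists_chain_subtype (V : GSub J) {r : ℕ} (hr : r ≠ 0) (s : ℕ) (F : ℕ → AddSubgroup J)
    (h0 : F 0 = ⊥) (hs : F s = V.S) (hst : ∀ i, GStable (F i))
    (hstep : ∀ i < s, IsStepA r (F i) (F (i + 1))) :
    ∃ F' : ℕ → AddSubgroup V.S, F' 0 = ⊥ ∧ F' s = ⊤ ∧ (∀ i, GStable (F' i)) ∧
      ∀ i < s, IsStep r (F' i) (F' (i + 1)) := by
  have hmono : ∀ j, j ≤ s → ∀ i, i ≤ j → F i ≤ F j := by
    intro j
    induction j with
    | zero =>
      intro _ i hi
      rw [Nat.le_zero.mp hi]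
    | succ j ih =>
      intro hj i hi
      rcases Nat.lt_or_ge i (j + 1) with h1 | h1
      · exact (ih (by omega) i (by omega)).trans (hstep j (by omega)).le
      · rw [le_antisymm hi h1]
  refine ⟨fun i => (F i).addSubgroupOf V.S, ?_, ?_, ?_, ?_⟩
  · show (F 0).addSubgroupOf V.S = ⊥
    rw [h0, AddSubgroup.bot_addSubgroupOf]
  · show (F s).addSubgroupOf V.S = ⊤
    rw [hs, AddSubgroup.addSubgroupOf_self]
  · intro i σ x hx
    exact hst i σ x hx
  · intro i hi
    refine (hstep i hi).toStep V hr ?_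
    rw [← hs]
    exact hmono s le_rfl (i + 1) (by omega)

end Fermat.Agent.S15.H

end
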