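/-
S15, route W, block H + APP: the ABSTRACT AMBIENT DATA.

`J` an abelian group with an action of `GQ` (in the application `JZero p`), `X : D.Ctx` the context of Theorem D (`X.N = p`, `X.r = r`).
`Amb X J` bundles everything the application (4) of report 339 uses about `J`; `Hk X J S` bundles the Hecke operators away from `S`.
The abstract theorem `core_abs` (`App.lean`) deduces the abstract form of `CoreBound`; `Inst.lean` instantiates it with `JZero p`.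
-/
import Fermat.Agent.S15.H.GSub
import Fermat.Agent.S15.D.Defs
import Fermat.Prelude.Def_EllipticCurve_FrobeniusTrace

set_option autoImplicit false
set_option linter.unusedSectionVars false

noncomputable section

namespace Fermat.Agent.S15.H

open Fermat.Agent.S15.Sel

universe u

/-- `J[m]`. -/
def tor (J : Type*) [AddCommGroup J] (m : ℕ) : AddSubgroup J := (nsmulAddMonoidHom (α := J) m).ker

theorem mem_tor {J : Type*} [AddCommGroup J] {m : ℕ} {x : J} : x ∈ tor J m ↔ m • x = 0 := Iff.rfl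

/-- `J^{GQ}`. -/
abbrev fixG (J : Type*) [AddCommGroup J] [DistribMulAction GQ J] : AddSubgroup J :=
  FixedPoints.addSubgroup GQ J

/-- rational torsion. -/
def ratTor (J : Type*) [AddCommGroup J] [DistribMulAction GQ J] : AddSubgroup J where
  carrier := {x | (∀ σ : GQ, σ • x = x) ∧ ∃ m : ℕ, m ≠ 0 ∧ m • x = 0}
  zero_mem' := ⟨fun σ => smul_zero σ, 1, one_ne_zero, smul_zero 1⟩
  add_mem' := by
    rintro x y ⟨hx, m, hm, hmx⟩ ⟨hy, m', hm', hmy⟩
    refine ⟨fun σ => by rw [smul_add, hx, hy], m * m', mul_ne_zero hm hm', ?_⟩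
    rw [smul_add, mul_comm m m', mul_smul, hmx, mul_comm m' m, mul_smul, hmy, smul_zero, smul_zero,
      add_zero]
  neg_mem' := by
    rintro x ⟨hx, m, hm, hmx⟩
    exact ⟨fun σ => by rw [smul_neg, hx], m, hm, by rw [smul_neg, hmx, neg_zero]⟩

/-- the ambient data. -/
structure Amb (X : D.Ctx) (J : Type u) [AddCommGroup J] [DistribMulAction GQ J] where
  /-- open stabilisers -/
  sm : ∀ x : J, IsSm (dd x)
  /-- divisibility -/
  div : ∀ m : ℕ, m ≠ 0 → ∀ x : J, ∃ y : J, m • y = x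
  /-- finiteness of torsion -/
  fin : ∀ m : ℕ, m ≠ 0 → Finite (tor J m)
  /-- Mordell-Weil (only: rational torsion is finite) -/
  finQ : Finite (ratTor J)
  /-- division points by powers of `r` are unramified outside `r N` -/
  ur : ∀ ℓ : ℕ, ℓ.Prime → ℓ ≠ X.r → ℓ ≠ X.N → ∀ σ ∈ Ine (X.P.pl ℓ), ∀ (k : ℕ) (y : J),
    σ • (X.r ^ k • y) = X.r ^ k • y → σ • y = y
  /-- the Weil pairing -/
  e : ℕ → J → J → Qbˣ
  e_add_left : ∀ (m : ℕ) (x x' y : J), x ∈ tor J m → x' ∈ tor J m → y ∈ tor J m →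
    e m (x + x') y = e m x y * e m x' y
  e_add_right : ∀ (m : ℕ) (x y y' : J), x ∈ tor J m → y ∈ tor J m → y' ∈ tor J m →
    e m x (y + y') = e m x y * e m x y'
  e_gal : ∀ (m : ℕ) (σ : GQ) (x y : J), ((e m (σ • x) (σ • y) : Qbˣ) : Qb) = σ ((e m x y : Qbˣ) : Qb)
  /-- non degeneracy (for `m` a power of `r`), on both sides -/
  e_nd_left : ∀ (k : ℕ) (x : J), x ∈ tor J (X.r ^ k) →
    (∀ y ∈ tor J (X.r ^ k), e (X.r ^ k) x y = 1) → x = 0
  e_nd_right : ∀ (k : ℕ) (y : J), y ∈ tor J (X.r ^ k) →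
    (∀ x ∈ tor J (X.r ^ k), e (X.r ^ k) x y = 1) → y = 0
  /-- the toric part at `N` -/
  K : ℕ → AddSubgroup J
  K_le : ∀ m, K m ≤ tor J m
  K_kum : ∀ m : ℕ, 0 < m → ∀ σ ∈ Ine (X.P.pl X.N), ∀ y : J, σ • (m • y) = m • y → σ • y - y ∈ K m
  e0 : ℕ
  e0_ne : e0 ≠ 0
  K_iso : ∀ (k : ℕ), ∀ x ∈ K (X.r ^ k), ∀ y ∈ K (X.r ^ k), e (X.r ^ k) x y ^ e0 = 1
  /-- Kummer cocycles of rational points are flat at `r` (block F + INVDIV) -/
  flat : ∀ (k : ℕ) (x₁ : J), (∀ σ : GQ, σ • (X.r ^ k • x₁) = X.r ^ k • x₁) →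
    ∀ z : GQ → tor J (X.r ^ k), (∀ σ, (z σ : J) = σ • x₁ - x₁) → D.FlatCoc X.S z
  /-- `cc` is an involution -/
  cc_sq : X.cc * X.cc = 1

/-- the Hecke operators `T q`, `q ∉ S`. -/
structure Hk (X : D.Ctx) (J : Type u) [AddCommGroup J] [DistribMulAction GQ J] (S : Finset ℕ) where
  hr : X.r ∈ S
  hN : X.N ∈ S
  T : Nat.Primes → Module.End ℤ J
  gal : ∀ (q : Nat.Primes) (σ : GQ) (x : J), T q (σ • x) = σ • T q x
  comm : ∀ q q' : Nat.Primes, (q : ℕ) ∉ S → (q' : ℕ) ∉ S → ∀ (m : ℕ), m ≠ 0 → ∀ x ∈ tor J m,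
    T q (T q' x) = T q' (T q x)
  es : ∀ q : Nat.Primes, (q : ℕ) ∉ S → ∀ A : ValuationSubring Qb, A.LiesOverPrime q →
    ∀ σ : GQ, A.IsFrobeniusAt σ q → ∀ (k : ℕ), ∀ x ∈ tor J (X.r ^ k),
      σ • σ • x - T q (σ • x) + (q : ℕ) • x = 0

variable {X : D.Ctx} {J : Type u} [AddCommGroup J] [DistribMulAction GQ J] {S : Finset ℕ}

/-- `η_q = T_q - (1 + q)`, indexed by the primes outside `S`. -/
def Hk.η (H : Hk X J S) (q : {q : Nat.Primes // (q : ℕ) ∉ S}) : Module.End ℤ J :=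
  H.T q.1 - ((1 + (q.1 : ℕ) : ℕ) : Module.End ℤ J)

theorem Hk.η_apply (H : Hk X J S) (q : {q : Nat.Primes // (q : ℕ) ∉ S}) (x : J) :
    H.η q x = H.T q.1 x - (1 + (q.1 : ℕ)) • x := by
  simp only [Hk.η, LinearMap.sub_apply, Module.End.natCast_apply]

/-- the algebra generated by the `T q`, `q ∉ S`. -/
def Hk.alg (H : Hk X J S) : Subalgebra ℤ (Module.End ℤ J) :=
  Algebra.adjoin ℤ {t | ∃ q : Nat.Primes, (q : ℕ) ∉ S ∧ t = H.T q}

theorem gstable_tor (m : ℕ) : GStable (tor J m) := by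
  intro σ x hx
  rw [mem_tor] at hx ⊢
  rw [← smul_zero σ, ← hx]
  exact ((DistribSMul.toAddMonoidHom J σ).map_nsmul m x).symm

end Fermat.Agent.S15.H

end
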