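/-
S15, route W, block H: the Eisenstein idempotent, WITHOUT any commutative ring.

`M` a finite subgroup of an abelian group `J`, `η i : Module.End ℤ J` a family of endomorphisms preserving `M` and commuting
ON `M`.  Then there is `ε` in the `ℤ`-algebra generated by the `η i` which is idempotent on `M`, whose fixed points in `M` are
exactly the elements on which all `η i` are nilpotent, and which fixes every `x : J` killed by all `η i`.
-/
import Mathlib

set_option autoImplicit false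
set_option linter.unusedSectionVars false

namespace Fermat.Agent.S15.H

variable {J : Type*} [AddCommGroup J] {ι : Type*}

/-- LEAF H-I1.  Some positive power of an endomorphism of a finite group is idempotent.
Proof: the map `j ↦ (fun x : M => (f ^ j) x)` from `ℕ` to the finite type `M → J`... (values lie in `M`: use `M → M`) is not
injective (`Finite.exists_ne_map_eq_of_infinite`): `f ^ a = f ^ (a + b)` on `M` with `b ≥ 1`; then
`f ^ c = f ^ (c + b * t)` on `M` for all `c ≥ a` and all `t`; take `E := (a + 1) * b` (`≥ a`, `> 0`, multiple of `b`):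
`f ^ (E + E) = f ^ E` on `M`.  For the `iff`: if `(f ^ j) x = 0` then `(f ^ E) x = (f ^ (E * (j + 1))) x = 0`
(idempotency iterated; `E * (j + 1) ≥ j`). -/
theorem exists_pow_idem (M : AddSubgroup J) [Finite M] (f : Module.End ℤ J)
    (hf : ∀ x ∈ M, f x ∈ M) :
    ∃ E : ℕ, 0 < E ∧ (∀ x ∈ M, (f ^ E) ((f ^ E) x) = (f ^ E) x) ∧
      ∀ x ∈ M, (f ^ E) x = 0 ↔ ∃ j : ℕ, (f ^ j) x = 0 := by
  classical
  have hfp : ∀ j : ℕ, ∀ x ∈ M, (f ^ j) x ∈ M := by
    intro j
    induction j with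
    | zero => intro x hx; simpa using hx
    | succ j ih =>
      intro x hx
      rw [pow_succ', Module.End.mul_apply]
      exact hf _ (ih x hx)
  have hadd : ∀ (i j : ℕ) (x : J), (f ^ (i + j)) x = (f ^ i) ((f ^ j) x) := by
    intro i j x
    rw [pow_add, Module.End.mul_apply]
  obtain ⟨a, b, hb, hab⟩ : ∃ a b : ℕ, 0 < b ∧ ∀ x ∈ M, (f ^ (a + b)) x = (f ^ a) x := by
    let g : ℕ → (M → M) := fun j x => ⟨(f ^ j) x, hfp j x x.2⟩
    obtain ⟨a', b', hne, heq⟩ := Finite.exists_ne_map_eq_of_infinite g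
    have hval : ∀ x ∈ M, (f ^ a') x = (f ^ b') x := by
      intro x hx
      have := congrFun heq ⟨x, hx⟩
      exact congrArg Subtype.val this
    rcases lt_or_gt_of_ne hne with h | h
    · refine ⟨a', b' - a', by omega, fun x hx => ?_⟩
      have : a' + (b' - a') = b' := by omega
      rw [this]
      exact (hval x hx).symm
    · refine ⟨b', a' - b', by omega, fun x hx => ?_⟩
      have : b' + (a' - b') = a' := by omega
      rw [this]
      exact hval x hx
  have h1 : ∀ c : ℕ, a ≤ c → ∀ x ∈ M, (f ^ (c + b)) x = (f ^ c) x := by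
    intro c hc x hx
    obtain ⟨d, rfl⟩ := Nat.exists_eq_add_of_le hc
    have e1 : a + d + b = d + (a + b) := by omega
    have e2 : a + d = d + a := by omega
    rw [e1, e2, hadd d (a + b), hadd d a, hab x hx]
  have h2 : ∀ t : ℕ, ∀ c : ℕ, a ≤ c → ∀ x ∈ M, (f ^ (c + b * t)) x = (f ^ c) x := by
    intro t
    induction t with
    | zero => intro c _ x _; simp
    | succ t ih =>
      intro c hc x hx
      have e1 : c + b * (t + 1) = (c + b * t) + b := by ring
      rw [e1, h1 (c + b * t) (by omega) x hx, ih c hc x hx]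
  have hEa : a ≤ (a + 1) * b := by nlinarith
  have hE0 : 0 < (a + 1) * b := by positivity
  refine ⟨(a + 1) * b, hE0, ?_, ?_⟩
  · intro x hx
    rw [← hadd]
    have e1 : (a + 1) * b + (a + 1) * b = (a + 1) * b + b * (a + 1) := by ring
    rw [e1, h2 (a + 1) _ hEa x hx]
  · intro x hx
    constructor
    · intro h; exact ⟨_, h⟩
    · rintro ⟨j, hj⟩
      rw [← h2 ((a + 1) * j) _ hEa x hx]
      have hle : j ≤ (a + 1) * b + b * ((a + 1) * j) := by nlinarith
      obtain ⟨d, hd⟩ := Nat.exists_eq_add_of_le hle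
      have e1 : (a + 1) * b + b * ((a + 1) * j) = d + j := by omega
      rw [e1, hadd, hj, map_zero]

theorem exists_eps_pow_mem (M : AddSubgroup J) (g : Module.End ℤ J) (hg : ∀ x ∈ M, g x ∈ M)
    (n : ℕ) : ∀ x ∈ M, (g ^ n) x ∈ M := by
  induction n with
  | zero => intro x hx; simpa using hx
  | succ n ih =>
    intro x hx
    rw [pow_succ', Module.End.mul_apply]
    exact hg _ (ih x hx)

theorem exists_eps_pow_comm (M : AddSubgroup J) (g g' : Module.End ℤ J) (hg : ∀ x ∈ M, g x ∈ M)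
    (hc : ∀ x ∈ M, g' (g x) = g (g' x)) (n : ℕ) : ∀ x ∈ M, g' ((g ^ n) x) = (g ^ n) (g' x) := by
  induction n with
  | zero => intro x _; simp
  | succ n ih =>
    intro x hx
    rw [pow_succ', Module.End.mul_apply, Module.End.mul_apply,
      hc _ (exists_eps_pow_mem M g hg n x hx), ih x hx]

theorem exists_eps_adjoin_mem (M : AddSubgroup J) (η : ι → Module.End ℤ J)
    (hM : ∀ i, ∀ x ∈ M, η i x ∈ M) {ε : Module.End ℤ J}
    (hε : ε ∈ Algebra.adjoin ℤ (Set.range η)) : ∀ x ∈ M, ε x ∈ M := by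
  induction hε using Algebra.adjoin_induction with
  | mem g hg =>
    obtain ⟨i, rfl⟩ := hg
    exact hM i
  | algebraMap r =>
    intro x hx
    rw [Module.algebraMap_end_apply]
    exact M.zsmul_mem hx r
  | add g g' _ _ h1 h2 =>
    intro x hx
    rw [LinearMap.add_apply]
    exact M.add_mem (h1 x hx) (h2 x hx)
  | mul g g' _ _ h1 h2 =>
    intro x hx
    rw [Module.End.mul_apply]
    exact h1 _ (h2 x hx)

/-- LEAF H-I2.  **The idempotent.**
Proof by strong induction on `Nat.card M` (generalising `M`).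
If all `η i` are nilpotent at every `x ∈ M`: `ε = 1`.
Otherwise pick `i₀`, `x₀ ∈ M` with `η i₀` not nilpotent at `x₀`; `E` from `exists_pow_idem M (η i₀)`; `p := 1 - η i₀ ^ E`;
`M₁ := {x ∈ M | (η i₀ ^ E) x = 0}` (an `AddSubgroup`, `= {x ∈ M | p x = x}`, `p` maps `M` into `M₁`, `x₀ ∉ M₁` so
`Nat.card M₁ < Nat.card M`); `M₁` is stable under all `η i` (`η i` commutes with `η i₀ ^ E` on `M`: induction on `E`).
Induction hypothesis for `M₁` gives `ε₁`; take `ε := ε₁ * p`.
* `ε ∈ adjoin`: `Subalgebra.mul_mem`, `sub_mem`, `one_mem`, `pow_mem`, `Algebra.subset_adjoin`.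
* `η i x = 0 ∀ i` ⟹ `(η i₀ ^ E) x = 0` (`E > 0`) ⟹ `p x = x` ⟹ `ε x = ε₁ x = x`.
* every element of `adjoin` maps `M₁` to `M₁` (`Algebra.adjoin_induction`), so `y := ε₁ (p x) ∈ M₁`, `ε₁ y = y` (idempotency of
  `ε₁` on `M₁`), `p y = y`: idempotency of `ε` on `M`.
* `ε x = x` ⟹ `x ∈ M₁`, `p x = x`, `ε₁ x = x` ⟹ nilpotent (IH).  Conversely nilpotent ⟹ `(η i₀ ^ E) x = 0` (the `iff` of
  `exists_pow_idem`) ⟹ `x ∈ M₁`, `p x = x`, `ε₁ x = x` (IH). -/
theorem exists_eps (M : AddSubgroup J) [Finite M] (η : ι → Module.End ℤ J)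
    (hM : ∀ i, ∀ x ∈ M, η i x ∈ M)
    (hcomm : ∀ i i', ∀ x ∈ M, η i (η i' x) = η i' (η i x)) :
    ∃ ε : Module.End ℤ J, ε ∈ Algebra.adjoin ℤ (Set.range η) ∧
      (∀ x : J, (∀ i, η i x = 0) → ε x = x) ∧
      (∀ x ∈ M, ε (ε x) = ε x) ∧
      (∀ x ∈ M, ε x = x ↔ ∀ i, ∃ j : ℕ, (η i ^ j) x = 0) := by
  classical
  induction hn : Nat.card M using Nat.strong_induction_on generalizing M with
  | _ n ih =>
  by_cases hall : ∀ i, ∀ x ∈ M, ∃ j : ℕ, (η i ^ j) x = 0
  · exact ⟨1, Subalgebra.one_mem _, fun x _ => rfl, fun x _ => rfl,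
      fun x hx => ⟨fun _ i => hall i x hx, fun _ => rfl⟩⟩
  · push Not at hall
    obtain ⟨i₀, x₀, hx₀, hnil⟩ := hall
    obtain ⟨E, hE, hidem, hiff⟩ := exists_pow_idem M (η i₀) (hM i₀)
    have hfM : ∀ x ∈ M, (η i₀ ^ E) x ∈ M := exists_eps_pow_mem M (η i₀) (hM i₀) E
    have hfc : ∀ i, ∀ x ∈ M, η i ((η i₀ ^ E) x) = (η i₀ ^ E) (η i x) := fun i =>
      exists_eps_pow_comm M (η i₀) (η i) (hM i₀) (fun x hx => hcomm i i₀ x hx) E
    set f : Module.End ℤ J := η i₀ ^ E with hf
    let M₁ : AddSubgroup J := M ⊓ (LinearMap.ker f).toAddSubgroup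
    have hmem : ∀ x, x ∈ M₁ ↔ x ∈ M ∧ f x = 0 := by
      intro x
      rw [AddSubgroup.mem_inf, Submodule.mem_toAddSubgroup, LinearMap.mem_ker]
    have hle : M₁ ≤ M := inf_le_left
    have : Finite M₁ :=
      Finite.of_injective (AddSubgroup.inclusion hle) (AddSubgroup.inclusion_injective hle)
    have hlt : Nat.card M₁ < n := by
      rw [← hn]
      have e1 : Nat.card M₁ = (M₁ : Set J).ncard := _root_.Nat.card_coe_set_eq (M₁ : Set J)
      have e2 : Nat.card M = (M : Set J).ncard := _root_.Nat.card_coe_set_eq (M : Set J)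
      have hfinM : (M : Set J).Finite := Set.toFinite _
      rw [e1, e2]
      refine Set.ncard_lt_ncard ?_ hfinM
      refine ⟨hle, fun hcon => ?_⟩
      have h1 := ((hmem x₀).1 (hcon hx₀)).2
      obtain ⟨j, hj⟩ := (hiff x₀ hx₀).1 h1
      exact hnil j hj
    have hM₁ : ∀ i, ∀ x ∈ M₁, η i x ∈ M₁ := by
      intro i x hx
      obtain ⟨h1, h2⟩ := (hmem x).1 hx
      refine (hmem _).2 ⟨hM i x h1, ?_⟩
      rw [← hfc i x h1, h2, map_zero]
    obtain ⟨ε₁, hε₁, hfix₁, hidem₁, hiff₁⟩ := ih (Nat.card M₁) hlt M₁ hM₁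
      (fun i i' x hx => hcomm i i' x (hle hx)) rfl
    have hp : ∀ x, (1 - f) x = x - f x := fun x => by
      rw [LinearMap.sub_apply, Module.End.one_apply]
    have hpM : ∀ x ∈ M, (1 - f) x ∈ M₁ := by
      intro x hx
      rw [hp]
      refine (hmem _).2 ⟨M.sub_mem hx (hfM x hx), ?_⟩
      rw [map_sub, hidem x hx, sub_self]
    have hpM₁ : ∀ x ∈ M₁, (1 - f) x = x := by
      intro x hx
      rw [hp, ((hmem x).1 hx).2, sub_zero]
    have hε₁M : ∀ x ∈ M₁, ε₁ x ∈ M₁ := exists_eps_adjoin_mem M₁ η hM₁ hε₁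
    refine ⟨ε₁ * (1 - f), ?_, ?_, ?_, ?_⟩
    · exact Subalgebra.mul_mem _ hε₁ (Subalgebra.sub_mem _ (Subalgebra.one_mem _)
        (Subalgebra.pow_mem _ (Algebra.subset_adjoin (Set.mem_range_self i₀)) E))
    · intro x hx
      have h1 : f x = 0 := by
        obtain ⟨E', rfl⟩ : ∃ E', E = E' + 1 := ⟨E - 1, by omega⟩
        rw [hf, pow_succ, Module.End.mul_apply, hx i₀, map_zero]
      rw [Module.End.mul_apply, hp, h1, sub_zero]
      exact hfix₁ x hx
    · intro x hx
      rw [Module.End.mul_apply, Module.End.mul_apply, hpM₁ _ (hε₁M _ (hpM x hx)),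
        hidem₁ _ (hpM x hx)]
    · intro x hx
      rw [Module.End.mul_apply]
      constructor
      · intro h1
        have h2 : x ∈ M₁ := by
          rw [← h1]
          exact hε₁M _ (hpM x hx)
        rw [hpM₁ x h2] at h1
        exact (hiff₁ x h2).1 h1
      · intro h1
        have h2 : x ∈ M₁ := (hmem x).2 ⟨hx, (hiff x hx).2 (h1 i₀)⟩
        rw [hpM₁ x h2]
        exact (hiff₁ x h2).2 h1

end Fermat.Agent.S15.H
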