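/-
S15, route W, block H: the idempotent `ε` at level `k` and the modules `V = ε J[n]`, `V'' = (1 - ε) J[n]`, `V' = (V'')^⊥` (`n = r ^ k`).
-/
import Fermat.Agent.S15.H.Amb
import Fermat.Agent.S15.H.Idem

set_option autoImplicit false
set_option linter.unusedSectionVars false

noncomputable section

namespace Fermat.Agent.S15.H

open Fermat.Agent.S15.Sel

universe u

variable {X : D.Ctx} {J : Type u} [AddCommGroup J] [DistribMulAction GQ J] {S : Finset ℕ}

/-- LEAF H-E1.  Elements of the Hecke algebra commute with `GQ`.  (`Algebra.adjoin_induction`; generators: `H.gal`; `algebraMap ℤ _ a` acts as `a • ·`: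
`smul_comm`-type lemma `σ • (a • x) = a • σ • x` via `(DistribSMul.toAddMonoidHom J σ).map_zsmul`; add, mul immediate.  Same pattern as
`Fermat.Agent.S15.TTS_comm` in `S15/Z5/Main.lean`.) -/
theorem Hk.alg_gal (H : Hk X J S) {t : Module.End ℤ J} (ht : t ∈ H.alg) (σ : GQ) (x : J) :
    t (σ • x) = σ • t x := by
  revert x
  unfold Hk.alg at ht
  induction ht using Algebra.adjoin_induction with
  | mem t ht =>
    obtain ⟨q, _, rfl⟩ := ht
    intro x
    exact H.gal q σ x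
  | algebraMap a =>
    intro x
    rw [Module.algebraMap_end_apply, Module.algebraMap_end_apply]
    exact ((DistribSMul.toAddMonoidHom J σ).map_zsmul a x).symm
  | add s t _ _ hs ht =>
    intro x
    rw [LinearMap.add_apply, LinearMap.add_apply, hs, ht, smul_add]
  | mul s t _ _ hs ht =>
    intro x
    rw [Module.End.mul_apply, Module.End.mul_apply, ht, hs]

/-- any endomorphism preserves `J[m]`. -/
theorem end_mem_tor (t : Module.End ℤ J) {m : ℕ} {x : J} (hx : x ∈ tor J m) : t x ∈ tor J m := by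
  rw [mem_tor] at hx ⊢
  rw [← map_nsmul, hx, map_zero]

/-- LEAF H-E2.  `η q ∈ H.alg`, hence `adjoin (range η) ≤ H.alg`.
(`Subalgebra.sub_mem`, `Algebra.subset_adjoin`, `natCast_mem`; then `Algebra.adjoin_le`.) -/
theorem Hk.adjoin_η_le (H : Hk X J S) : Algebra.adjoin ℤ (Set.range H.η) ≤ H.alg := by
  apply Algebra.adjoin_le
  rintro _ ⟨q, rfl⟩
  unfold Hk.η
  exact Subalgebra.sub_mem _ (Algebra.subset_adjoin ⟨q.1, q.2, rfl⟩) (natCast_mem _ _)

/-- the idempotent at level `k`, with its properties. -/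
structure Eps (H : Hk X J S) (k : ℕ) where
  ε : Module.End ℤ J
  mem : ε ∈ H.alg
  fix : ∀ x : J, (∀ q, H.η q x = 0) → ε x = x
  idem : ∀ x ∈ tor J (X.r ^ k), ε (ε x) = ε x
  nil : ∀ x ∈ tor J (X.r ^ k), ε x = x ↔ ∀ q, ∃ j : ℕ, (H.η q ^ j) x = 0

/-- LEAF H-E3.  Existence: `exists_eps (tor J (X.r ^ k)) H.η` (finite by `A.fin`, `X.hr.ne_zero`, `pow_ne_zero`); stability by `end_mem_tor`;
commutation on torsion: expand `H.η_apply`, `map_sub`, `map_nsmul`, `H.comm q q' _ _ (X.r ^ k) _ x hx`. -/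
theorem exists_Eps (A : Amb X J) (H : Hk X J S) (k : ℕ) : Nonempty (Eps H k) := by
  have hne : X.r ^ k ≠ 0 := pow_ne_zero _ X.hr.ne_zero
  have hfin : Finite (tor J (X.r ^ k)) := A.fin (X.r ^ k) hne
  obtain ⟨ε, h1, h2, h3, h4⟩ := exists_eps (tor J (X.r ^ k)) H.η
    (fun i x hx => end_mem_tor _ hx)
    (fun q q' x hx => by
      rw [H.η_apply, H.η_apply, H.η_apply, H.η_apply, map_sub, map_sub, map_nsmul, map_nsmul,
        H.comm q.1 q'.1 q.2 q'.2 (X.r ^ k) hne x hx, smul_sub, smul_sub,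
        smul_comm (1 + (q.1 : ℕ)) (1 + (q'.1 : ℕ)) x]
      abel)
  exact ⟨⟨ε, H.adjoin_η_le h1, h2, h3, h4⟩⟩

variable {H : Hk X J S} {k : ℕ}

theorem Eps.gal (E : Eps H k) (σ : GQ) (x : J) : E.ε (σ • x) = σ • E.ε x := H.alg_gal E.mem σ x

/-- `V = ε J[n]`. -/
def Eps.V (E : Eps H k) : GSub J where
  S :=
    { carrier := {x | x ∈ tor J (X.r ^ k) ∧ E.ε x = x}
      zero_mem' := ⟨(tor J _).zero_mem, map_zero _⟩
      add_mem' := fun {x y} hx hy => ⟨(tor J _).add_mem hx.1 hy.1, by rw [map_add, hx.2, hy.2]⟩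
      neg_mem' := fun {x} hx => ⟨(tor J _).neg_mem hx.1, by rw [map_neg, hx.2]⟩ }
  st := fun σ x hx => ⟨gstable_tor _ σ x hx.1, by rw [E.gal, hx.2]⟩

/-- `V'' = (1 - ε) J[n]`. -/
def Eps.V2 (E : Eps H k) : AddSubgroup J where
  carrier := {x | x ∈ tor J (X.r ^ k) ∧ E.ε x = 0}
  zero_mem' := ⟨(tor J _).zero_mem, map_zero _⟩
  add_mem' := fun {x y} hx hy => ⟨(tor J _).add_mem hx.1 hy.1, by rw [map_add, hx.2, hy.2, add_zero]⟩
  neg_mem' := fun {x} hx => ⟨(tor J _).neg_mem hx.1, by rw [map_neg, hx.2, neg_zero]⟩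

theorem Eps.mem_V (E : Eps H k) {x : J} : x ∈ E.V.S ↔ x ∈ tor J (X.r ^ k) ∧ E.ε x = x := Iff.rfl

theorem Eps.mem_V2 (E : Eps H k) {x : J} : x ∈ E.V2 ↔ x ∈ tor J (X.r ^ k) ∧ E.ε x = 0 := Iff.rfl

theorem Eps.ε_mem_V (E : Eps H k) {x : J} (hx : x ∈ tor J (X.r ^ k)) : E.ε x ∈ E.V.S :=
  ⟨end_mem_tor _ hx, E.idem x hx⟩

theorem Eps.sub_ε_mem_V2 (E : Eps H k) {x : J} (hx : x ∈ tor J (X.r ^ k)) : x - E.ε x ∈ E.V2 :=
  ⟨(tor J _).sub_mem hx (end_mem_tor _ hx), by rw [map_sub, E.idem x hx, sub_self]⟩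

theorem Eps.gstable_V2 (E : Eps H k) : GStable E.V2 :=
  fun σ x hx => ⟨gstable_tor _ σ x hx.1, by rw [E.gal, hx.2, smul_zero]⟩

/-- `V' = (V'')^⊥` for the Weil pairing. -/
def Eps.V' (A : Amb X J) (E : Eps H k) : GSub J where
  S :=
    { carrier := {y | y ∈ tor J (X.r ^ k) ∧ ∀ x ∈ E.V2, A.e (X.r ^ k) x y = 1}
      zero_mem' := ⟨(tor J _).zero_mem, fun x hx => by
        have h := A.e_add_right (X.r ^ k) x 0 0 hx.1 (tor J _).zero_mem (tor J _).zero_mem
        rw [add_zero] at h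
        exact (mul_eq_left.mp h.symm)⟩
      add_mem' := fun {y y'} hy hy' => ⟨(tor J _).add_mem hy.1 hy'.1, fun x hx => by
        rw [A.e_add_right _ x y y' hx.1 hy.1 hy'.1, hy.2 x hx, hy'.2 x hx, one_mul]⟩
      neg_mem' := fun {y} hy => ⟨(tor J _).neg_mem hy.1, fun x hx => by
        have h := A.e_add_right (X.r ^ k) x y (-y) hx.1 hy.1 ((tor J _).neg_mem hy.1)
        have h0 := A.e_add_right (X.r ^ k) x 0 0 hx.1 (tor J _).zero_mem (tor J _).zero_mem
        rw [add_zero] at h0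
        rw [add_neg_cancel, mul_eq_left.mp h0.symm, hy.2 x hx, one_mul] at h
        exact h.symm⟩ }
  st := fun σ y hy => ⟨gstable_tor _ σ y hy.1, fun x hx => by
    have h1 := A.e_gal (X.r ^ k) σ (σ⁻¹ • x) y
    rw [smul_inv_smul, hy.2 _ (E.gstable_V2 σ⁻¹ x hx)] at h1
    exact Units.ext (by rw [h1]; simp)⟩

theorem Eps.mem_V' (A : Amb X J) (E : Eps H k) {y : J} :
    y ∈ (E.V' A).S ↔ y ∈ tor J (X.r ^ k) ∧ ∀ x ∈ E.V2, A.e (X.r ^ k) x y = 1 := Iff.rfl

theorem Eps.finite_V (A : Amb X J) (E : Eps H k) : Finite E.V.S := by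
  have := A.fin (X.r ^ k) (pow_ne_zero _ X.hr.ne_zero)
  exact Finite.of_injective (fun x : E.V.S => (⟨x.1, x.2.1⟩ : tor J (X.r ^ k)))
    (fun x y h => Subtype.ext (congrArg (fun z : tor J (X.r ^ k) => (z : J)) h))

theorem Eps.finite_V' (A : Amb X J) (E : Eps H k) : Finite (E.V' A).S := by
  have := A.fin (X.r ^ k) (pow_ne_zero _ X.hr.ne_zero)
  exact Finite.of_injective (fun x : (E.V' A).S => (⟨x.1, x.2.1⟩ : tor J (X.r ^ k)))
    (fun x y h => Subtype.ext (congrArg (fun z : tor J (X.r ^ k) => (z : J)) h))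

end Fermat.Agent.S15.H

end
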