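/-
S15, route W, block H: the KOLCHIN step.

`U` a nonzero finite `GQ`-stable subgroup of `J`, killed by the prime `r`, on which `(σ - 1)(σ - a) = 0` whenever `σ` acts on
`μ_r` as the `a`-th power.  Then `U` contains a nonzero vector on which `GQ` acts trivially or through the cyclotomic character.
-/
import Fermat.Agent.S15.H.GSub
import Fermat.Agent.S15.Sel.QuotEx

set_option autoImplicit false
set_option linter.unusedSectionVars false

namespace Fermat.Agent.S15.H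

open Fermat.Agent.S15.Sel

universe u

variable {J : Type u} [AddCommGroup J] [DistribMulAction GQ J]

/-- the quadratic relation on `U`, modulo `W`. -/
def QuadRel (r : ℕ) (W U : AddSubgroup J) : Prop :=
  ∀ (σ : GQ) (a : ℕ), ActsMu r σ a → ∀ x ∈ U, σ • σ • x - (1 + a) • σ • x + a • x ∈ W

/-- LEAF H-K1.  A nonzero vector fixed by `H = {σ | ActsMu r σ 1}`.
Proof.  (a) for `h` with `ActsMu r h 1` and `x ∈ U`: `h • h • x - 2 • h • x + x = 0` (`hq`, `AddSubgroup.mem_bot`), hence by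
induction `h ^ j • x = x + j • (h • x - x)`, hence `h ^ r • x = x` (`hrU`).
(b) `H : Subgroup GQ` with carrier `{σ | ActsMu r σ 1}` (`ActsMu r σ 1 ↔ ∀ ζ, ζ ^ r = 1 → σ ζ = ζ`).  `H` acts on the finite type
`U` (`MulAction H U`, `h • ⟨x, hx⟩ = ⟨h • x, hU h x hx⟩`).  Let `P := (MulAction.toPermHom H U).range`; by (a) every element of `P`
satisfies `g ^ r = 1`, so `IsPGroup r P` (`IsPGroup.of_...`, or directly `fun g => ⟨1, by simpa⟩`).  `P` acts on `U`
(subgroup of `Equiv.Perm U`).  `r ∣ Nat.card U`: `U` is a nontrivial finite group killed by `r`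
(`exists_prime_addOrderOf_dvd_card`-free: take `x ≠ 0`, `addOrderOf x = r` (`addOrderOf_eq_prime`), `addOrderOf_dvd_natCard`).
(c) `IsPGroup.exists_fixed_point_of_prime_dvd_card_of_fixed_point` (with `Fact r.Prime`, `a = 0`) gives a fixed point `b ≠ 0`. -/
theorem exists_fixed_ker {r : ℕ} (hr : r.Prime) (U : AddSubgroup J) [Finite U] (hU0 : U ≠ ⊥)
    (hU : GStable U) (hrU : ∀ x ∈ U, r • x = 0) (hq : QuadRel r ⊥ U) :
    ∃ x ∈ U, x ≠ 0 ∧ ∀ σ : GQ, ActsMu r σ 1 → σ • x = x := by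
  classical
  have : Fact r.Prime := ⟨hr⟩
  have ha : ∀ h : GQ, ActsMu r h 1 → ∀ x ∈ U, h • h • x - h • x = h • x - x := by
    intro h hh x hx
    have h0 := hq h 1 hh x hx
    rw [AddSubgroup.mem_bot] at h0
    have e : h • h • x - (1 + 1) • h • x + 1 • x = (h • h • x - h • x) - (h • x - x) := by
      rw [add_smul, one_smul]
      abel
    rw [e] at h0
    exact sub_eq_zero.mp h0
  have hns : ∀ (h : GQ) (j : ℕ) (y : J), h • (j • y) = j • (h • y) := by
    intro h j y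
    exact map_nsmul (DistribSMul.toAddMonoidHom J h) j y
  have hpow : ∀ h : GQ, ActsMu r h 1 → ∀ x ∈ U, ∀ j : ℕ, h ^ j • x = x + j • (h • x - x) := by
    intro h hh x hx j
    induction j with
    | zero => simp
    | succ j ih =>
      rw [pow_succ', mul_smul, ih, smul_add, hns, smul_sub, ha h hh x hx, succ_nsmul]
      abel
  have hr1 : ∀ h : GQ, ActsMu r h 1 → ∀ x ∈ U, h ^ r • x = x := by
    intro h hh x hx
    rw [hpow h hh x hx r, hrU _ (U.sub_mem (hU h x hx) hx), add_zero]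
  let H : Subgroup GQ :=
    { carrier := {σ | ActsMu r σ 1}
      one_mem' := by
        intro ζ _
        simp
      mul_mem' := by
        intro σ τ hσ hτ ζ hζ
        have h1 := hτ ζ hζ
        have h2 := hσ ζ hζ
        rw [pow_one] at h1 h2 ⊢
        rw [AlgEquiv.mul_apply, h1, h2]
      inv_mem' := by
        intro σ hσ ζ hζ
        have h1 := hσ ζ hζ
        rw [pow_one] at h1 ⊢
        have h2 : σ⁻¹ (σ ζ) = ζ := σ.symm_apply_apply ζ
        rw [h1] at h2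
        exact h2 }
  let actH : MulAction H U :=
    { smul := fun h x => ⟨(h : GQ) • (x : J), hU h x x.2⟩
      one_smul := fun x => Subtype.ext (one_smul GQ (x : J))
      mul_smul := fun g h x => Subtype.ext (mul_smul (g : GQ) (h : GQ) (x : J)) }
  have hsm : ∀ (h : H) (x : U), ((h • x : U) : J) = (h : GQ) • (x : J) := fun _ _ => rfl
  let P : Subgroup (Equiv.Perm U) := (MulAction.toPermHom H U).range
  have hP : IsPGroup r P := by
    rintro ⟨g, h, rfl⟩
    refine ⟨1, ?_⟩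
    apply Subtype.ext
    rw [pow_one]
    show (MulAction.toPermHom H U h) ^ r = 1
    rw [← map_pow]
    ext x
    show (((h ^ r) • x : U) : J) = x
    rw [hsm]
    exact hr1 h h.2 x x.2
  have hcard : r ∣ Nat.card U := by
    obtain ⟨x, hx0⟩ := AddSubgroup.ne_bot_iff_exists_ne_zero.mp hU0
    have ho : addOrderOf x = r := by
      apply addOrderOf_eq_prime
      · exact Subtype.ext (hrU x x.2)
      · exact hx0
    rw [← ho]
    exact addOrderOf_dvd_natCard x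
  have h0fix : (0 : U) ∈ MulAction.fixedPoints P U := by
    rintro ⟨g, h, rfl⟩
    show (h • (0 : U) : U) = 0
    apply Subtype.ext
    rw [hsm]
    exact smul_zero _
  obtain ⟨b, hb, hb0⟩ := hP.exists_fixed_point_of_prime_dvd_card_of_fixed_point U hcard h0fix
  refine ⟨b, b.2, ?_, ?_⟩
  · intro h
    exact hb0 (Subtype.ext h.symm)
  · intro σ hσ
    have := hb ⟨MulAction.toPermHom H U ⟨σ, hσ⟩, ⟨σ, hσ⟩, rfl⟩
    exact congrArg Subtype.val this

theorem exists_line_bot_actsMu_mul {r : ℕ} {σ τ : GQ} {a b : ℕ} (hσ : ActsMu r σ a)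
    (hτ : ActsMu r τ b) : ActsMu r (σ * τ) (a * b) := by
  intro ζ hζ
  rw [AlgEquiv.mul_apply, hτ ζ hζ, map_pow, hσ ζ hζ, ← pow_mul]

theorem exists_line_bot_map_pow {r : ℕ} (σ : GQ) {ζ : Qb} (hζ : ζ ^ r = 1) : (σ ζ) ^ r = 1 := by
  rw [← map_pow, hζ, map_one]

theorem exists_line_bot_actsMu_conj {r : ℕ} {h : GQ} (hh : ActsMu r h 1) (σ : GQ) :
    ActsMu r (σ⁻¹ * h * σ) 1 := by
  intro ζ hζ
  rw [AlgEquiv.mul_apply, AlgEquiv.mul_apply, hh (σ ζ) (exists_line_bot_map_pow σ hζ), pow_one,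
    pow_one]
  exact σ.symm_apply_apply ζ

theorem exists_line_bot_actsMu_comm {r : ℕ} (hr : r ≠ 0) (σ τ : GQ) :
    ActsMu r (σ⁻¹ * τ⁻¹ * σ * τ) 1 := by
  obtain ⟨a, ha⟩ := exists_actsMu hr σ
  obtain ⟨b, hb⟩ := exists_actsMu hr τ
  intro ζ hζ
  have h1 : σ (τ ζ) = τ (σ ζ) := by
    rw [hb ζ hζ, ha ζ hζ, map_pow, map_pow, ha ζ hζ, hb ζ hζ, ← pow_mul, ← pow_mul, mul_comm]
  rw [AlgEquiv.mul_apply, AlgEquiv.mul_apply, AlgEquiv.mul_apply, h1, pow_one]
  show σ.symm (τ.symm (τ (σ ζ))) = ζ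
  rw [τ.symm_apply_apply, σ.symm_apply_apply]

theorem exists_line_bot_actsMu_congr {r : ℕ} {σ : GQ} {a b : ℕ} (hσ : ActsMu r σ a)
    (hab : a ≡ b [MOD r]) : ActsMu r σ b := by
  intro ζ hζ
  rw [hσ ζ hζ, pow_eq_pow_mod a hζ, pow_eq_pow_mod b hζ, hab]

theorem exists_line_bot_nsmul_congr {r : ℕ} {x : J} (hx : r • x = 0) {a b : ℕ}
    (hab : a ≡ b [MOD r]) : a • x = b • x := by
  have key : ∀ c : ℕ, c • x = (c % r) • x := by
    intro c
    conv_lhs => rw [← Nat.mod_add_div c r, add_smul, mul_comm, mul_smul, hx, smul_zero, add_zero]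
  rw [key a, key b, hab]

theorem exists_line_bot_eq_zero {r : ℕ} (hr : r.Prime) {w : J} (hrw : r • w = 0) {m : ℤ}
    (hm : m • w = 0) (hnd : ¬ (r : ℤ) ∣ m) : w = 0 := by
  have hc : IsCoprime (r : ℤ) m := (Nat.prime_iff_prime_int.mp hr).coprime_iff_not_dvd.mpr hnd
  obtain ⟨u, v, huv⟩ := hc
  have h1 : ((r : ℤ)) • w = 0 := by rw [natCast_zsmul, hrw]
  calc w = (1 : ℤ) • w := (one_smul _ _).symm
    _ = (u * r + v * m) • w := by rw [huv]
    _ = 0 := by rw [add_smul, mul_smul, mul_smul, h1, hm, smul_zero, smul_zero, add_zero]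

/-- LEAF H-K2.  **Kolchin.**
Proof.  `U₁ := {x ∈ U | ∀ h, ActsMu r h 1 → h • x = x}` is a `GQ`-stable subgroup (`ActsMu r (σ⁻¹ * h * σ) 1` because `σ ζ` is again
an `r`-th root of unity), nonzero by `exists_fixed_ker`; any two `σ, τ` commute on `U₁` (`ActsMu r (σ⁻¹ * τ⁻¹ * σ * τ) 1`: take `a`, `b` with
`ActsMu r σ a`, `ActsMu r τ b` (`exists_actsMu`), then `σ τ ζ = ζ ^ (a b) = τ σ ζ`).
Case A: `σ • x = a • x` for all `σ, a` with `ActsMu r σ a` and all `x ∈ U₁`: any nonzero `x ∈ U₁`, second alternative.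
Case B: there are `σ₀, a₀` (`ActsMu r σ₀ a₀`), `x₀ ∈ U₁` with `y := σ₀ • x₀ - a₀ • x₀ ≠ 0`.  Then `y ∈ U₁`, `σ₀ • y = y` (`hq`).  `r ∤ a₀ - 1`
(in `ℤ`): otherwise `ζ ^ a₀ = ζ` on `μ_r`, `ActsMu r σ₀ 1`, `σ₀ • x₀ = x₀ = a₀ • x₀`, `y = 0`.
Claim: `σ • y = y` for all `σ` (first alternative).  Take `a` with `ActsMu r σ a`; `w := σ • y - y ∈ U₁`; `σ • w = a • w` (`hq` for `y`);
`σ₀ • w = w` (commutation on `U₁`); `ActsMu r (σ * σ₀) (a * a₀)`; `hq` for `σ * σ₀` and `w` gives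
`(a ^ 2 - (1 + a a₀) a + a a₀) • w = 0`, i.e. `(a (a - 1) (1 - a₀) : ℤ) • w = 0`.  `r ∤ a` (else `σ ζ = 1` for `ζ ∈ μ_r`, but `σ` is injective and there
is `ζ ≠ 1` in `μ_r`: primitive root).  If `r ∣ a - 1` then `ActsMu r σ 1` and `w = 0` as `y ∈ U₁`.  Otherwise the integer is prime to `r`, and
`r • w = 0`, so `w = 0` (Bezout: `Int.isCoprime_iff_gcd_eq_one`, `IsCoprime`). -/
theorem exists_line_bot {r : ℕ} (hr : r.Prime) (U : AddSubgroup J) [Finite U] (hU0 : U ≠ ⊥)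
    (hU : GStable U) (hrU : ∀ x ∈ U, r • x = 0) (hq : QuadRel r ⊥ U) :
    ∃ x ∈ U, x ≠ 0 ∧ ((∀ σ : GQ, σ • x = x) ∨
      (∀ (σ : GQ) (a : ℕ), ActsMu r σ a → σ • x = a • x)) := by
  have hr0 : r ≠ 0 := hr.ne_zero
  let P : J → Prop := fun x => x ∈ U ∧ ∀ h : GQ, ActsMu r h 1 → h • x = x
  have P_smul : ∀ (σ : GQ) (x : J), P x → P (σ • x) := by
    intro σ x hx
    refine ⟨hU σ x hx.1, fun h hh => ?_⟩
    have h1 := hx.2 _ (exists_line_bot_actsMu_conj hh σ)
    calc h • σ • x = σ • (σ⁻¹ * h * σ) • x := by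
          rw [smul_smul, smul_smul]; congr 1; group
      _ = σ • x := by rw [h1]
  have P_sub : ∀ x y : J, P x → P y → P (x - y) := fun x y hx hy =>
    ⟨U.sub_mem hx.1 hy.1, fun h hh => by rw [smul_sub, hx.2 h hh, hy.2 h hh]⟩
  have P_nsmul : ∀ (n : ℕ) (x : J), P x → P (n • x) := fun n x hx =>
    ⟨U.nsmul_mem hx.1 n, fun h hh => by rw [smul_comm, hx.2 h hh]⟩
  have P_comm : ∀ (σ τ : GQ) (x : J), P x → σ • τ • x = τ • σ • x := by
    intro σ τ x hx
    have h1 := hx.2 _ (exists_line_bot_actsMu_comm hr0 σ τ)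
    calc σ • τ • x = τ • σ • (σ⁻¹ * τ⁻¹ * σ * τ) • x := by
          rw [smul_smul, smul_smul, smul_smul]; congr 1; group
      _ = τ • σ • x := by rw [h1]
  by_cases hA : ∀ (σ : GQ) (a : ℕ), ActsMu r σ a → ∀ x : J, P x → σ • x = a • x
  · obtain ⟨x, hxU, hx0, hfix⟩ := exists_fixed_ker hr U hU0 hU hrU hq
    exact ⟨x, hxU, hx0, Or.inr fun σ a h => hA σ a h x ⟨hxU, hfix⟩⟩
  · push Not at hA
    obtain ⟨σ₀, a₀, h₀, x₀, hx₀, hne⟩ := hA
    obtain ⟨y, hy⟩ : ∃ y : J, y = σ₀ • x₀ - a₀ • x₀ := ⟨_, rfl⟩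
    have hy0 : y ≠ 0 := by rw [hy]; exact sub_ne_zero.2 hne
    have hPy : P y := by rw [hy]; exact P_sub _ _ (P_smul σ₀ x₀ hx₀) (P_nsmul a₀ x₀ hx₀)
    have hσ₀y : σ₀ • y = y := by
      have h1 := hq σ₀ a₀ h₀ x₀ hx₀.1
      rw [AddSubgroup.mem_bot, add_smul, one_smul] at h1
      rw [hy, smul_sub, smul_comm σ₀ a₀ x₀, ← sub_eq_zero, ← h1]
      abel
    have ha₀ : ¬ (r : ℤ) ∣ 1 - (a₀ : ℤ) := by
      intro hd
      have hmod : a₀ ≡ 1 [MOD r] := (Nat.modEq_iff_dvd).2 (by simpa using hd)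
      apply hne
      rw [hx₀.2 σ₀ (exists_line_bot_actsMu_congr h₀ hmod),
        exists_line_bot_nsmul_congr (hrU x₀ hx₀.1) hmod, one_smul]
    refine ⟨y, hPy.1, hy0, Or.inl fun σ => ?_⟩
    obtain ⟨a, ha⟩ := exists_actsMu hr0 σ
    obtain ⟨w, hw⟩ : ∃ w : J, w = σ • y - y := ⟨_, rfl⟩
    have hPw : P w := by rw [hw]; exact P_sub _ _ (P_smul σ y hPy) hPy
    have hσw : σ • w = a • w := by
      have h1 := hq σ a ha y hPy.1
      rw [AddSubgroup.mem_bot, add_smul, one_smul] at h1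
      rw [hw, smul_sub, smul_sub, ← sub_eq_zero, ← h1]
      abel
    have hσ₀w : σ₀ • w = w := by
      rw [hw, smul_sub, P_comm σ₀ σ y hPy, hσ₀y]
    have hrw : r • w = 0 := hrU w hPw.1
    have hw0 : w = 0 := by
      by_cases h1 : (r : ℤ) ∣ (a : ℤ)
      · have h2 : a • w = 0 := by
          obtain ⟨k, hk⟩ := Int.natCast_dvd_natCast.1 h1
          rw [hk, mul_comm, mul_smul, hrw, smul_zero]
        rw [h2] at hσw
        exact (smul_eq_zero_iff_eq σ).1 hσw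
      by_cases h2 : (r : ℤ) ∣ (a : ℤ) - 1
      · have hmod : 1 ≡ a [MOD r] := Nat.modEq_iff_dvd.2 (by simpa using h2)
        rw [hw, hPy.2 σ (exists_line_bot_actsMu_congr ha hmod.symm), sub_self]
      have h3 := hq (σ * σ₀) (a * a₀) (exists_line_bot_actsMu_mul ha h₀) w hPw.1
      rw [AddSubgroup.mem_bot] at h3
      have h4 : (σ * σ₀) • w = a • w := by rw [mul_smul, hσ₀w, hσw]
      rw [h4, smul_comm, h4] at h3
      have h5 : ((a : ℤ) * ((a : ℤ) - 1) * (1 - (a₀ : ℤ))) • w = 0 := by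
        rw [← h3]
        module
      refine exists_line_bot_eq_zero hr hrw h5 ?_
      intro hd
      have hp := Nat.prime_iff_prime_int.mp hr
      rcases hp.dvd_or_dvd hd with hd | hd
      · rcases hp.dvd_or_dvd hd with hd | hd
        · exact h1 hd
        · exact h2 hd
      · exact ha₀ hd
    rw [hw] at hw0
    exact sub_eq_zero.1 hw0

/-- LEAF H-K3.  The relative form.
Proof.  `obtain ⟨Jq, _, _, ⟨q⟩⟩ := exists_qmap W hW` (`q.π : J →+ Jq` equivariant surjection with kernel `W`).  Apply `exists_line_bot` to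
`U.map q.π` (finite: image of the finite `U`; `≠ ⊥` because `U ≰ W`; stable; killed by `r`; `QuadRel` by `q.equiv`, `map_sub`, `map_nsmul`, `q.ker`).
Get `x̄ = q.π x`, `x ∈ U`, `x ∉ W`.  `W' := W ⊔ AddSubgroup.zmultiples x`.  `W' ≤ U`.  `GStable W'`: `σ • x - x ∈ W` resp. `σ • x - a • x ∈ W`
(with `a` from `exists_actsMu`).  `W.relIndex W' = r`: `W' ⧸ W` is generated by the class of `x`, which has order exactly `r` (`r • x ∈ W`, `x ∉ W`, `r` prime);
e.g. `W'.map q.π = zmultiples (q.π x)`, `Nat.card (zmultiples _) = addOrderOf _ = r`, and `Nat.card (W'.map q.π) = W.relIndex W'`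
(`Sel.QMap.card_map` in `Sel/Index.lean` is this statement but assumes the AMBIENT group finite, which `J` is not: copy its proof, or use
`QuotientAddGroup.quotientKerEquivRange` for `q.π` restricted to `W'`, whose kernel is `W.addSubgroupOf W'`; `relIndex = index of addSubgroupOf`).
The `type` alternative for all elements `w + n • x` of `W'`. -/
theorem exists_line {r : ℕ} (hr : r.Prime) (W U : AddSubgroup J) [Finite U] (hWU : W < U)
    (hW : GStable W) (hU : GStable U) (hrU : ∀ x ∈ U, r • x ∈ W) (hq : QuadRel r W U) :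
    ∃ W' : AddSubgroup J, W' ≤ U ∧ GStable W' ∧ IsStepA r W W' := by
  obtain ⟨Jq, i1, i2, ⟨q⟩⟩ := exists_qmap W hW
  have hker : q.π.ker = W := by
    ext x
    rw [AddMonoidHom.mem_ker, q.ker]
  have hfin : Finite (U.map q.π) :=
    Finite.of_surjective (fun x : U => (⟨q.π x, ⟨x, x.2, rfl⟩⟩ : U.map q.π)) (by
      rintro ⟨_, x, hx, rfl⟩
      exact ⟨⟨x, hx⟩, rfl⟩)
  have hne : U.map q.π ≠ ⊥ := by
    intro h
    apply not_le_of_gt hWU
    intro x hx
    rw [← q.ker]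
    have h1 : q.π x ∈ U.map q.π := ⟨x, hx, rfl⟩
    rw [h] at h1
    exact h1
  have hst : GStable (U.map q.π) := by
    rintro σ _ ⟨x, hx, rfl⟩
    exact ⟨σ • x, hU σ x hx, q.equiv σ x⟩
  have hr' : ∀ y ∈ U.map q.π, r • y = 0 := by
    rintro _ ⟨x, hx, rfl⟩
    rw [← map_nsmul, q.ker]
    exact hrU x hx
  have hq' : QuadRel r ⊥ (U.map q.π) := by
    rintro σ a ha _ ⟨x, hx, rfl⟩
    rw [AddSubgroup.mem_bot, ← q.equiv, ← q.equiv, ← map_nsmul, ← map_nsmul, ← map_sub, ← map_add,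
      q.ker]
    exact hq σ a ha x hx
  obtain ⟨_, ⟨x, hxU, rfl⟩, hx0, halt⟩ := exists_line_bot hr (U.map q.π) hne hst hr' hq'
  have hmem : ∀ y ∈ W ⊔ AddSubgroup.zmultiples x, ∃ n : ℤ, q.π y = n • q.π x := by
    intro y hy
    obtain ⟨w, hw, z, hz, rfl⟩ := AddSubgroup.mem_sup.1 hy
    obtain ⟨n, rfl⟩ := AddSubgroup.mem_zmultiples_iff.1 hz
    exact ⟨n, by rw [map_add, map_zsmul, (q.ker w).2 hw, zero_add]⟩
  have htype : (∀ σ : GQ, ∀ y ∈ W ⊔ AddSubgroup.zmultiples x, σ • y - y ∈ W) ∨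
      (∀ (σ : GQ) (a : ℕ), ActsMu r σ a → ∀ y ∈ W ⊔ AddSubgroup.zmultiples x,
        σ • y - a • y ∈ W) := by
    rcases halt with h | h
    · left
      intro σ y hy
      obtain ⟨n, hn⟩ := hmem y hy
      rw [← q.ker, map_sub, q.equiv, hn, smul_comm σ n, h σ, sub_self]
    · right
      intro σ a ha y hy
      obtain ⟨n, hn⟩ := hmem y hy
      rw [← q.ker, map_sub, q.equiv, map_nsmul, hn, smul_comm σ n, h σ a ha, smul_comm n a,
        sub_self]
  refine ⟨W ⊔ AddSubgroup.zmultiples x,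
    sup_le hWU.le (by rw [AddSubgroup.zmultiples_le]; exact hxU), ?_, ⟨le_sup_left, ?_, htype⟩⟩
  · intro σ y hy
    rcases htype with h | h
    · have e : σ • y = (σ • y - y) + y := by abel
      rw [e]
      exact AddSubgroup.add_mem _ ((le_sup_left : W ≤ W ⊔ AddSubgroup.zmultiples x) (h σ y hy)) hy
    · obtain ⟨a, ha⟩ := exists_actsMu hr.ne_zero σ
      have e : σ • y = (σ • y - a • y) + a • y := by abel
      rw [e]
      exact AddSubgroup.add_mem _
        ((le_sup_left : W ≤ W ⊔ AddSubgroup.zmultiples x) (h σ a ha y hy))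
        (AddSubgroup.nsmul_mem _ hy a)
  · have : Fact r.Prime := ⟨hr⟩
    have hWbot : W.map q.π = ⊥ := by
      rw [AddSubgroup.map_eq_bot_iff, hker]
    rw [← hker, AddSubgroup.relIndex_ker, hker, AddSubgroup.map_sup, hWbot, bot_sup_eq,
      AddMonoidHom.map_zmultiples, Nat.card_zmultiples]
    exact addOrderOf_eq_prime (hr' _ ⟨x, hxU, rfl⟩) hx0

end Fermat.Agent.S15.H
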