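/-
S15, route W, block H: the abstract CHAIN theorem (the flag of the Eisenstein part).

`V` a finite `GQ`-stable subgroup of `J` killed by `r ^ k`, `η i` endomorphisms of `J` commuting with `GQ`, preserving `V`, commuting on `V`,
nilpotent on `V`, and such that the quadratic relation `(σ - 1)(σ - a) x ∈ η U + r U` holds on every stable `U ≤ V` (`QuadHyp`).
Then `V` has a chain of `GQ`-stable subgroups with steps `IsStepA r`.
-/
import Fermat.Agent.S15.H.Kolchin

set_option autoImplicit false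
set_option linter.unusedSectionVars false

namespace Fermat.Agent.S15.H

open Fermat.Agent.S15.Sel

universe u

variable {J : Type u} [AddCommGroup J] [DistribMulAction GQ J] {ι : Type*}

/-- the quadratic relation (output of `Quad.lean`). -/
def QuadHyp (r : ℕ) (η : ι → Module.End ℤ J) (V : AddSubgroup J) : Prop :=
  ∀ U : AddSubgroup J, U ≤ V → GStable U → ∀ (σ : GQ) (a : ℕ), ActsMu r σ a → ∀ x ∈ U,
    ∃ i : ι, ∃ y ∈ U, ∃ y' ∈ U, σ • σ • x - (1 + a) • σ • x + a • x = η i y + r • y'

/-- stability under the operators. -/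
def EStable (η : ι → Module.End ℤ J) (W : AddSubgroup J) : Prop := ∀ i, ∀ x ∈ W, η i x ∈ W

/-- LEAF H-C1.  A common "eigenvector" modulo `W`.
Proof.  Among the subgroups `X ≤ V` with `EStable η X` and `¬ X ≤ W` (nonempty: `V`) choose one with `Nat.card X` minimal
(`Nat.find` / `WellFounded.min` on `Nat.card`; all `X ≤ V` are finite).  For `θ = η i` (resp. `θ = r • ·`): `X.map θ ≤ X`, it is `EStable` (commutation on `V`).
If `¬ X.map θ ≤ W`, minimality gives `Nat.card X ≤ Nat.card (X.map θ)`, so `θ` is injective on the finite `X`; but `θ ^ j x = 0` for some `j`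
(`hnil`, resp. `hk`), so `x = 0` for all `x ∈ X`, i.e. `X = ⊥ ≤ W`: contradiction.  So `θ X ≤ W` for all `θ`; take any `x ∈ X`, `x ∉ W`. -/
theorem exists_common {r k : ℕ} (V W : AddSubgroup J) [Finite V] (hWV : W < V)
    (hk : ∀ x ∈ V, r ^ k • x = 0) (η : ι → Module.End ℤ J) (hηV : EStable η V)
    (hcomm : ∀ i i', ∀ x ∈ V, η i (η i' x) = η i' (η i x))
    (hnil : ∀ i, ∀ x ∈ V, ∃ j : ℕ, (η i ^ j) x = 0) :
    ∃ x ∈ V, x ∉ W ∧ r • x ∈ W ∧ ∀ i, η i x ∈ W := by
  classical
  have key : ∀ (θ : Module.End ℤ J) (X : AddSubgroup J), X ≤ V → (∀ x ∈ X, θ x ∈ X) →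
      (∀ x ∈ X, ∃ j : ℕ, (θ ^ j) x = 0) → X ≠ ⊥ → X.map θ.toAddMonoidHom < X := by
    intro θ X hXV hθX hnilθ hX0
    have hle : X.map θ.toAddMonoidHom ≤ X := by
      rintro _ ⟨x, hx, rfl⟩
      exact hθX x hx
    refine lt_of_le_of_ne hle (fun heq => hX0 ?_)
    have : Finite X :=
      Finite.of_injective (AddSubgroup.inclusion hXV) (AddSubgroup.inclusion_injective hXV)
    let g : X → X := fun x => ⟨θ x, hθX x x.2⟩
    have hsurj : Function.Surjective g := by
      intro y
      have hy : (y : J) ∈ X.map θ.toAddMonoidHom := by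
        rw [heq]
        exact y.2
      obtain ⟨x, hx, hxy⟩ := hy
      exact ⟨⟨x, hx⟩, Subtype.ext hxy⟩
    have hinj : Function.Injective g := Finite.injective_iff_surjective.mpr hsurj
    have h0 : ∀ x ∈ X, θ x = 0 → x = 0 := by
      intro x hx h
      have h' : g ⟨x, hx⟩ = g 0 := Subtype.ext (by simp [g, h])
      exact congrArg Subtype.val (hinj h')
    have hj : ∀ j : ℕ, ∀ x ∈ X, (θ ^ j) x = 0 → x = 0 := by
      intro j
      induction j with
      | zero => intro x _ h; simpa using h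
      | succ j ih =>
        intro x hx h
        rw [pow_succ, Module.End.mul_apply] at h
        exact h0 x hx (ih (θ x) (hθX x hx) h)
    rw [eq_bot_iff]
    intro x hx
    obtain ⟨j, hj'⟩ := hnilθ x hx
    exact (AddSubgroup.mem_bot).mpr (hj j x hx hj')
  have main : ∀ n : ℕ, ∀ X : AddSubgroup J, X ≤ V → EStable η X → ¬ X ≤ W →
      (X : Set J).ncard = n → ∃ x ∈ X, x ∉ W ∧ r • x ∈ W ∧ ∀ i, η i x ∈ W := by
    intro n
    induction n using Nat.strong_induction_on with
    | _ n ih =>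
      intro X hXV hXE hXW hn
      have hX0 : X ≠ ⊥ := by
        rintro rfl
        exact hXW bot_le
      have hfin : (X : Set J).Finite := (Set.toFinite (V : Set J)).subset hXV
      have step : ∀ θ : Module.End ℤ J, (∀ x ∈ X, θ x ∈ X) →
          (∀ x ∈ X, ∃ j : ℕ, (θ ^ j) x = 0) →
          (∀ i, ∀ x ∈ X, η i (θ x) = θ (η i x)) → ¬ X.map θ.toAddMonoidHom ≤ W →
          ∃ x ∈ X, x ∉ W ∧ r • x ∈ W ∧ ∀ i, η i x ∈ W := by
        intro θ h1 h2 h3 h4
        have hlt := key θ X hXV h1 h2 hX0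
        have hcard : ((X.map θ.toAddMonoidHom : AddSubgroup J) : Set J).ncard < n := by
          rw [← hn]
          exact Set.ncard_lt_ncard (SetLike.coe_ssubset_coe.mpr hlt) hfin
        have hE : EStable η (X.map θ.toAddMonoidHom) := by
          rintro i _ ⟨x, hx, rfl⟩
          exact ⟨η i x, hXE i x hx, (h3 i x hx).symm⟩
        obtain ⟨x, hx, h⟩ := ih _ hcard (X.map θ.toAddMonoidHom) (hlt.le.trans hXV) hE h4 rfl
        exact ⟨x, hlt.le hx, h⟩
      have hθr : ∀ x : J, (r • (1 : Module.End ℤ J)) x = r • x := by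
        intro x
        simp
      by_cases hr : X.map (r • (1 : Module.End ℤ J)).toAddMonoidHom ≤ W
      · by_cases hη : ∀ i, X.map (η i).toAddMonoidHom ≤ W
        · obtain ⟨x, hx, hxW⟩ := SetLike.not_le_iff_exists.mp hXW
          refine ⟨x, hx, hxW, ?_, fun i => hη i ⟨x, hx, rfl⟩⟩
          exact hr ⟨x, hx, hθr x⟩
        · push Not at hη
          obtain ⟨i, hi⟩ := hη
          exact step (η i) (hXE i) (fun x hx => hnil i x (hXV hx))
            (fun i' x hx => hcomm i' i x (hXV hx)) hi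
      · refine step (r • (1 : Module.End ℤ J)) ?_ ?_ ?_ hr
        · intro x hx
          rw [hθr]
          exact X.nsmul_mem hx r
        · intro x hx
          refine ⟨k, ?_⟩
          rw [smul_pow, one_pow, LinearMap.smul_apply, Module.End.one_apply]
          exact hk x (hXV hx)
        · intro i x _
          rw [hθr, hθr, map_nsmul]
  obtain ⟨x, hx, h⟩ := main _ V le_rfl hηV (not_le_of_gt hWV) rfl
  exact ⟨x, hx, h⟩

/-- LEAF H-C2.  One step of the chain.
Proof.  `U := {x ∈ V | r • x ∈ W ∧ ∀ i, η i x ∈ W}` is an `AddSubgroup`, `W ≤ U` (`EStable η W`), `W < U` by `exists_common`, `U ≤ V` (so finite),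
`GStable U` (`hηG`, `hW`, `hV`, `smul_nsmul`-commutation `σ • (r • x) = r • σ • x`: `smul_comm`/`DistribMulAction` `smul_nsmul`).
`QuadRel r W U`: from `hq U _ _ σ a h x hx`: the value is `η i y + r • y'` with `y, y' ∈ U`, both terms in `W`.
`exists_line hr W U` gives `W' ≤ U` stable with `IsStepA r W W'`.  `EStable η W'`: `η i W' ≤ η i U ≤ W ≤ W'`. -/
theorem exists_step {r k : ℕ} (hr : r.Prime) (V W : AddSubgroup J) [Finite V] (hWV : W < V)
    (hV : GStable V) (hW : GStable W)
    (hk : ∀ x ∈ V, r ^ k • x = 0) (η : ι → Module.End ℤ J) (hηV : EStable η V) (hηW : EStable η W)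
    (hηG : ∀ i (σ : GQ) (x : J), η i (σ • x) = σ • η i x)
    (hcomm : ∀ i i', ∀ x ∈ V, η i (η i' x) = η i' (η i x))
    (hnil : ∀ i, ∀ x ∈ V, ∃ j : ℕ, (η i ^ j) x = 0) (hq : QuadHyp r η V) :
    ∃ W' : AddSubgroup J, W' ≤ V ∧ GStable W' ∧ EStable η W' ∧ IsStepA r W W' := by
  let U : AddSubgroup J :=
    { carrier := {x | x ∈ V ∧ r • x ∈ W ∧ ∀ i, η i x ∈ W}
      zero_mem' := ⟨V.zero_mem, by rw [smul_zero]; exact W.zero_mem,
        fun i => by rw [map_zero]; exact W.zero_mem⟩
      add_mem' := by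
        rintro x y ⟨hx, hx1, hx2⟩ ⟨hy, hy1, hy2⟩
        exact ⟨V.add_mem hx hy, by rw [smul_add]; exact W.add_mem hx1 hy1,
          fun i => by rw [map_add]; exact W.add_mem (hx2 i) (hy2 i)⟩
      neg_mem' := by
        rintro x ⟨hx, hx1, hx2⟩
        exact ⟨V.neg_mem hx, by rw [smul_neg]; exact W.neg_mem hx1,
          fun i => by rw [map_neg]; exact W.neg_mem (hx2 i)⟩ }
  have hUV : U ≤ V := fun x hx => hx.1
  have hWU' : W ≤ U := fun x hx => ⟨hWV.le hx, W.nsmul_mem hx r, fun i => hηW i x hx⟩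
  obtain ⟨x₀, hx₀V, hx₀W, hx₀r, hx₀η⟩ := exists_common V W hWV hk η hηV hcomm hnil
  have hx₀U : x₀ ∈ U := ⟨hx₀V, hx₀r, hx₀η⟩
  have hWU : W < U := SetLike.lt_iff_le_and_exists.2 ⟨hWU', x₀, hx₀U, hx₀W⟩
  have : Finite U :=
    Finite.of_injective (AddSubgroup.inclusion hUV) (AddSubgroup.inclusion_injective hUV)
  have hU : GStable U := by
    intro σ x hx
    refine ⟨hV σ x hx.1, ?_, fun i => ?_⟩
    · rw [smul_comm]
      exact hW σ _ hx.2.1
    · rw [hηG]
      exact hW σ _ (hx.2.2 i)
  have hq' : QuadRel r W U := by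
    intro σ a h x hx
    obtain ⟨i, y, hy, y', hy', he⟩ := hq U hUV hU σ a h x hx
    rw [he]
    exact W.add_mem (hy.2.2 i) hy'.2.1
  obtain ⟨W', hW'U, hW'G, hstep⟩ := exists_line hr W U hWU hW hU (fun x hx => hx.2.1) hq'
  exact ⟨W', hW'U.trans hUV, hW'G, fun i x hx => hstep.le ((hW'U hx).2.2 i), hstep⟩

/-- LEAF H-C3.  **The chain.**
Proof.  Show by strong induction on `n = Nat.card V - Nat.card W` (or on `W.relIndex V`): for every `W ≤ V` which is `GStable` and `EStable` there are
`s`, `F` with `F 0 = W`, `F s = V`, all `F i` `GStable`, steps `IsStepA`.  If `W = V`: `s = 0`, `F = fun _ => V`.  Otherwise `exists_step` gives `W'` with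
`W < W'` (`relIndex = r ≥ 2`, so `W ≠ W'`), apply the induction hypothesis to `W'` and prepend `W` (`F' 0 = W`, `F' (i + 1) = F i`).  Then take `W = ⊥`. -/
theorem exists_chain {r k : ℕ} (hr : r.Prime) (V : AddSubgroup J) [Finite V] (hV : GStable V)
    (hk : ∀ x ∈ V, r ^ k • x = 0) (η : ι → Module.End ℤ J) (hηV : EStable η V)
    (hηG : ∀ i (σ : GQ) (x : J), η i (σ • x) = σ • η i x)
    (hcomm : ∀ i i', ∀ x ∈ V, η i (η i' x) = η i' (η i x))
    (hnil : ∀ i, ∀ x ∈ V, ∃ j : ℕ, (η i ^ j) x = 0) (hq : QuadHyp r η V) :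
    ∃ (s : ℕ) (F : ℕ → AddSubgroup J), F 0 = ⊥ ∧ F s = V ∧ (∀ i, GStable (F i)) ∧
      ∀ i < s, IsStepA r (F i) (F (i + 1)) := by
  have key : ∀ n : ℕ, ∀ W : AddSubgroup J, W ≤ V → GStable W → EStable η W →
      Nat.card V - Nat.card W = n →
      ∃ (s : ℕ) (F : ℕ → AddSubgroup J), F 0 = W ∧ F s = V ∧ (∀ i, GStable (F i)) ∧
        ∀ i < s, IsStepA r (F i) (F (i + 1)) := by
    intro n
    induction n using Nat.strong_induction_on with
    | _ n ih =>
      intro W hWV hW hηW hn
      by_cases hWeq : W = V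
      · exact ⟨0, fun _ => V, hWeq.symm, rfl, fun _ => hV, fun i hi => absurd hi (Nat.not_lt_zero i)⟩
      · obtain ⟨W', hW'V, hW'G, hW'E, hstep⟩ := exists_step hr V W (lt_of_le_of_ne hWV hWeq) hV hW
          hk η hηV hηW hηG hcomm hnil hq
        have hfinW : Finite W := Finite.of_injective _ (AddSubgroup.inclusion_injective hWV)
        have hcard : Nat.card W' = r * Nat.card W := by
          have h3 := AddSubgroup.relIndex_mul_relIndex ⊥ W W' bot_le hstep.le
          rw [AddSubgroup.relIndex_bot_left, AddSubgroup.relIndex_bot_left, hstep.idx] at h3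
          rw [← h3, mul_comm]
        have hpos : 0 < Nat.card W := Nat.card_pos
        have hle : Nat.card W' ≤ Nat.card V := AddSubgroup.card_le_of_le hW'V
        have h2 := hr.two_le
        have hlt : Nat.card W < Nat.card W' := by rw [hcard]; nlinarith
        obtain ⟨s, F, hF0, hFs, hFG, hFstep⟩ :=
          ih (Nat.card V - Nat.card W') (by omega) W' hW'V hW'G hW'E rfl
        refine ⟨s + 1, fun i => Nat.casesOn i W F, rfl, hFs, ?_, ?_⟩
        · intro i
          cases i with
          | zero => exact hW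
          | succ j => exact hFG j
        · intro i hi
          cases i with
          | zero =>
            show IsStepA r W (F 0)
            rw [hF0]
            exact hstep
          | succ j => exact hFstep j (by omega)
  refine key _ ⊥ bot_le ?_ ?_ rfl
  · intro σ x hx
    rw [AddSubgroup.mem_bot] at hx ⊢
    rw [hx, smul_zero]
  · intro i x hx
    rw [AddSubgroup.mem_bot] at hx ⊢
    rw [hx, map_zero]

end Fermat.Agent.S15.H
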