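/-
S15, route W, block H: the QUADRATIC RELATION `(g - 1)(g - a) x ∈ η U + r U` for ALL `g : GQ`, from the Eichler-Shimura relation for Frobenius
elements and Frobenius density (`GAL.FrobeniusDensity`: every `g` is, on a given number field, a POWER of a Frobenius element).
-/
import Fermat.Agent.S15.H.Chain
import Fermat.Agent.GAL.Interface
import Fermat.Agent.GAL.Cyclo

set_option autoImplicit false
set_option linter.unusedSectionVars false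

namespace Fermat.Agent.S15.H

open Fermat.Agent.S15.Sel

universe u

variable {J : Type u} [AddCommGroup J] [DistribMulAction GQ J]

/-- LEAF H-Q1.  A Frobenius element at `ℓ ≠ r` acts on `μ_r` as the `ℓ`-th power.
(copy of the proof of `GAL.Cyclo.eps_frobenius`: `mem_of_pow_eq_one`, `eq_of_sub_mem_nonunits A hℓ hA hnd _ _ (sub_pow_mem_of_isFrobeniusAt hσ htA)`;
`A.LiesOverPrime ℓ` unfolds to `(ℓ : Qb) ∈ A.nonunits`, see its use there.) -/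
theorem actsMu_frobenius {r ℓ : ℕ} (hr : r.Prime) (hℓ : ℓ.Prime) (hℓr : ℓ ≠ r)
    {A : ValuationSubring Qb} (hA : A.LiesOverPrime ℓ) {σ : GQ} (hσ : A.IsFrobeniusAt σ ℓ) :
    ActsMu r σ ℓ := by
  intro ζ hζ
  have hnd : ¬ ℓ ∣ r := fun hd => hℓr ((Nat.prime_dvd_prime_iff_eq hℓ hr).mp hd)
  have htA : ζ ∈ A := Fermat.Agent.GAL.Cyclo.mem_of_pow_eq_one A hr.ne_zero hζ
  refine Fermat.Agent.GAL.Cyclo.eq_of_sub_mem_nonunits A hℓ hA hnd ?_ ?_
    (Fermat.Agent.GAL.Cyclo.sub_pow_mem_of_isFrobeniusAt hσ htA)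
  · rw [← map_pow, hζ, map_one]
  · rw [← pow_mul, mul_comm, pow_mul, hζ, one_pow]

/-- LEAF H-Q2.  `ActsMu` basics. (`pow`: induction, `σ (ζ ^ a) = (σ ζ) ^ a`, and `ζ ^ a` is again an `r`-th root of unity.
`congr`: take a primitive `r`-th root of unity `ζ₀` of `Qb` (as in `exists_actsMu`); `ζ₀ ^ a = ζ₀ ^ a'` gives `a ≡ a' [MOD r]`
(`IsPrimitiveRoot.pow_inj`/`IsPrimitiveRoot.pow_eq_pow_iff_modEq`-type lemma), then `(Nat.modEq_iff_dvd).1`.) -/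
theorem ActsMu.pow {r : ℕ} {σ : GQ} {a : ℕ} (h : ActsMu r σ a) (b : ℕ) :
    ActsMu r (σ ^ b) (a ^ b) := by
  induction b with
  | zero =>
    intro ζ _
    rw [pow_zero, pow_zero, pow_one, AlgEquiv.one_apply]
  | succ b ih =>
    intro ζ hζ
    rw [pow_succ, AlgEquiv.mul_apply, h ζ hζ, map_pow, ih ζ hζ, ← pow_mul, pow_succ]

theorem ActsMu.dvd_sub {r : ℕ} (hr : r ≠ 0) {σ : GQ} {a a' : ℕ} (h : ActsMu r σ a)
    (h' : ActsMu r σ a') : (r : ℤ) ∣ (a' : ℤ) - (a : ℤ) := by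
  have : NeZero r := ⟨hr⟩
  obtain ⟨ζ, hζ⟩ := HasEnoughRootsOfUnity.exists_primitiveRoot Qb r
  have h1 : ζ ^ a = ζ ^ a' := (h ζ hζ.pow_eq_one).symm.trans (h' ζ hζ.pow_eq_one)
  rw [pow_eq_pow_mod a hζ.pow_eq_one, pow_eq_pow_mod a' hζ.pow_eq_one] at h1
  have h2 : a % r = a' % r :=
    hζ.pow_inj (Nat.mod_lt _ (Nat.pos_of_ne_zero hr)) (Nat.mod_lt _ (Nat.pos_of_ne_zero hr)) h1
  exact (Nat.modEq_iff_dvd).1 h2

/-- (aux H-Q3) `(t - 1)(t - L)` applied to a vector. -/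
theorem quad_pow_aux (t : Module.End ℤ J) (L : ℕ) (z : J) :
    ((t - 1) * (t - (L : Module.End ℤ J))) z = t (t z) - (1 + L) • t z + L • z := by
  rw [Module.End.mul_apply, LinearMap.sub_apply, LinearMap.sub_apply, Module.End.one_apply,
    Module.End.natCast_apply, map_sub, map_nsmul, add_smul, one_smul]
  abel

/-- (aux H-Q3) a stable subgroup is stable under polynomials. -/
theorem quad_pow_stable (t : Module.End ℤ J) (U : AddSubgroup J) (hU : ∀ x ∈ U, t x ∈ U)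
    (P : Polynomial ℤ) : ∀ x ∈ U, Polynomial.aeval t P x ∈ U := by
  induction P using Polynomial.induction_on with
  | C a =>
    intro x hx
    rw [Polynomial.aeval_C, Module.algebraMap_end_apply]
    exact U.zsmul_mem hx a
  | add p q hp hq =>
    intro x hx
    rw [map_add, LinearMap.add_apply]
    exact U.add_mem (hp x hx) (hq x hx)
  | monomial n a ih =>
    intro x hx
    rw [pow_succ, ← mul_assoc, map_mul, Polynomial.aeval_X, Module.End.mul_apply]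
    exact ih _ (hU x hx)

/-- LEAF H-Q3.  The polynomial identity `(X^b - 1)(X^b - ℓ^b) = P(X) (X - 1)(X - ℓ)` as a statement on a `GQ`-module.
Let `U` be a `σ`-stable subgroup and `η : J →+ J` additive, commuting with `σ`, with `σ²x - (1+ℓ) σ x + ℓ x = η (σ x)` for all `x ∈ U`.
Then for all `b` and `x ∈ U` there is `y ∈ U` with `σ^{2b} x - (1 + ℓ^b) σ^b x + ℓ^b x = η y`.
Proof.  Put `A_b x := σ^b x - x`, `B_b x := σ^b x - ℓ^b x`.  By induction on `b`: `A_b x = (σ - 1) (∑_{i<b} σ^i x)` and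
`B_b x = (σ - ℓ) (∑_{i<b} ℓ^(b-1-i) σ^i x)`.  So `A_b (B_b x) = (σ-1)(σ-ℓ) z` with `z = ∑_i ∑_j ℓ^(b-1-j) σ^(i+j) x ∈ U`, which is `η (σ z)`.
Cleanest in Lean: work in the commutative ring `Polynomial ℤ` acting through `Polynomial.aeval (DistribMulAction.toAddMonoidEnd GQ J σ)`
(or `Module.End ℤ J`), with `Commute.geom_sum₂_mul`/`geom_sum₂_mul`: `X^b - 1 = (∑ X^i)(X - 1)`, `X^b - C ℓ^b = (∑ X^i ℓ^(b-1-i)) (X - C ℓ)`;
stability of `U` under `aeval σ P` by `Polynomial.induction_on`. -/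
theorem quad_pow (σ : GQ) (ℓ : ℕ) (U : AddSubgroup J) (hU : ∀ x ∈ U, σ • x ∈ U) (η : J →+ J)
    (hη : ∀ x : J, η (σ • x) = σ • η x)
    (hES : ∀ x ∈ U, σ • σ • x - (1 + ℓ) • σ • x + ℓ • x = η (σ • x)) (b : ℕ) :
    ∀ x ∈ U, ∃ y ∈ U,
      (σ ^ b) • (σ ^ b) • x - (1 + ℓ ^ b) • (σ ^ b) • x + ℓ ^ b • x = η y := by
  intro x hx
  let t : Module.End ℤ J := DistribMulAction.toModuleEnd ℤ J σ
  have ht : ∀ z : J, t z = σ • z := fun _ => rfl
  have htb : ∀ z : J, (t ^ b) z = (σ ^ b) • z := by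
    intro z
    have : t ^ b = DistribMulAction.toModuleEnd ℤ J (σ ^ b) := (map_pow _ σ b).symm
    rw [this]
    rfl
  let P : Polynomial ℤ := (∑ i ∈ Finset.range b, (Polynomial.X : Polynomial ℤ) ^ i) *
    (∑ i ∈ Finset.range b, (Polynomial.X : Polynomial ℤ) ^ i * (ℓ : Polynomial ℤ) ^ (b - 1 - i))
  have key : ((Polynomial.X : Polynomial ℤ) ^ b - 1) * (Polynomial.X ^ b - (ℓ : Polynomial ℤ) ^ b) =
      ((Polynomial.X - 1) * (Polynomial.X - (ℓ : Polynomial ℤ))) * P := by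
    rw [← geom_sum_mul, ← geom_sum₂_mul]
    ring
  have key2 := congrArg (Polynomial.aeval t) key
  simp only [map_mul, map_sub, map_pow, Polynomial.aeval_X, map_one, map_natCast] at key2
  have hz : Polynomial.aeval t P x ∈ U := quad_pow_stable t U hU P x hx
  refine ⟨σ • Polynomial.aeval t P x, hU _ hz, ?_⟩
  rw [← hES _ hz, ← ht, ← ht, ← quad_pow_aux t ℓ, ← Module.End.mul_apply, ← key2, ← Nat.cast_pow,
    quad_pow_aux (t ^ b) (ℓ ^ b), htb, htb]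

/-- LEAF H-Q4.  A number field trivialising the finite smooth module `V` and `μ_r`.
(`V` finite: for each `x : V` a `Finset` from `hsm`; union over `Finset.univ` (`Fintype.ofFinite`) together with the roots of `X ^ r - 1`
(`Polynomial.nthRoots r (1 : Qb)`, `.toFinset`); `F := IntermediateField.adjoin ℚ (that finite set)`, finite dimensional:
`IntermediateField.finiteDimensional_adjoin` with `Algebra.IsIntegral ℚ Qb`.) -/
theorem exists_field (r : ℕ) (hr : r ≠ 0) (V : AddSubgroup J) [Finite V]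
    (hsm : ∀ x ∈ V, IsSm (dd x)) :
    ∃ F : IntermediateField ℚ Qb, FiniteDimensional ℚ F ∧
      (∀ ζ : Qb, ζ ^ r = 1 → ζ ∈ F) ∧
      ∀ σ τ : GQ, (∀ z ∈ F, σ z = τ z) → ∀ x ∈ V, σ • x = τ • x := by
  classical
  let _ := Fintype.ofFinite V
  choose s hs using fun x : V => hsm x.1 x.2
  let S : Finset Qb := (Finset.univ.biUnion s) ∪ (Polynomial.nthRoots r (1 : Qb)).toFinset
  refine ⟨IntermediateField.adjoin ℚ (S : Set Qb), ?_, ?_, ?_⟩
  · have := Fermat.Agent.GAL.Cyclo.isAlgebraic_Qb inferInstance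
    exact IntermediateField.finiteDimensional_adjoin
      (fun z _ => (Algebra.IsAlgebraic.isAlgebraic z).isIntegral)
  · intro ζ hζ
    apply IntermediateField.subset_adjoin
    rw [Finset.mem_coe, Finset.mem_union]
    right
    rw [Multiset.mem_toFinset, Polynomial.mem_nthRoots (Nat.pos_of_ne_zero hr)]
    exact hζ
  · intro σ τ hστ x hx
    have h1 : dd x (τ⁻¹ * σ) = 0 := by
      apply hs ⟨x, hx⟩
      intro z hz
      have hzF : z ∈ IntermediateField.adjoin ℚ (S : Set Qb) := by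
        apply IntermediateField.subset_adjoin
        rw [Finset.mem_coe, Finset.mem_union]
        left
        exact Finset.mem_biUnion.2 ⟨⟨x, hx⟩, Finset.mem_univ _, hz⟩
      rw [AlgEquiv.mul_apply, hστ z hzF]
      exact τ.symm_apply_apply z
    rw [dd_apply, sub_eq_zero, mul_smul, inv_smul_eq_iff] at h1
    exact h1

/-- LEAF H-Q5.  **The quadratic relation** (assembly).
`ι := {ℓ : Nat.Primes // (ℓ : ℕ) ∉ S}`, `η ℓ = T ℓ - (1 + ℓ)`.
Proof.  Given `U ≤ V` stable, `g`, `a`, `x ∈ U`.  `F` from `exists_field`; `hFD F _ g S` gives `ℓ ∉ S`, `A`, `σ`, `b` with `σ ^ b = g` on `F`.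
So `(σ ^ b) • x' = g • x'` for `x' ∈ V`, and `ActsMu r g (ℓ ^ b)` (`actsMu_frobenius` (`ℓ ≠ r` as `r ∈ S`), `ActsMu.pow`, and `g = σ ^ b` on `μ_r ⊆ F`).
`quad_pow σ ℓ U _ (η ⟨⟨ℓ, _⟩, _⟩) ..` with `hES`: `σ²x - (1+ℓ)σx + ℓx = T(σx) - (1+ℓ)σx = η (σ x)`.  Get `y ∈ U`.
`(r : ℤ) ∣ ℓ^b - a` (`ActsMu.dvd_sub`): `ℓ^b - a = r c`;  `g²x - (1+a) g x + a x = [g²x - (1+ℓ^b) g x + ℓ^b x] + (ℓ^b - a) (g x - x)`, `y' := c • (g • x - x) ∈ U`. -/
theorem quadHyp_of_ES (hFD : Fermat.Agent.GAL.FrobeniusDensity) {r : ℕ} (hr : r.Prime)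
    (S : Finset ℕ) (hrS : r ∈ S) (V : AddSubgroup J) [Finite V] (hV : GStable V)
    (hsm : ∀ x ∈ V, IsSm (dd x))
    (T : Nat.Primes → Module.End ℤ J)
    (hTG : ∀ (ℓ : Nat.Primes) (σ : GQ) (x : J), T ℓ (σ • x) = σ • T ℓ x)
    (hES : ∀ ℓ : Nat.Primes, (ℓ : ℕ) ∉ S → ∀ A : ValuationSubring Qb, A.LiesOverPrime ℓ →
      ∀ σ : GQ, A.IsFrobeniusAt σ ℓ → ∀ x ∈ V, σ • σ • x - T ℓ (σ • x) + (ℓ : ℕ) • x = 0) :
    QuadHyp r (fun ℓ : {ℓ : Nat.Primes // (ℓ : ℕ) ∉ S} =>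
      T ℓ.1 - ((1 + (ℓ.1 : ℕ) : ℕ) : Module.End ℤ J)) V := by
  intro U hUV hUst g a hga x hxU
  obtain ⟨F, hFfin, hFμ, hFV⟩ := exists_field r hr.ne_zero V hsm
  obtain ⟨ℓ₀, A, σ, b, hℓ, hℓS, hA, hσ, hσg⟩ := hFD F hFfin g S
  obtain ⟨ℓ, rfl⟩ : ∃ ℓ : Nat.Primes, (ℓ : ℕ) = ℓ₀ := ⟨⟨ℓ₀, hℓ⟩, rfl⟩
  have hℓr : (ℓ : ℕ) ≠ r := fun h => hℓS (h ▸ hrS)
  have hact : ∀ x' ∈ V, (σ ^ b) • x' = g • x' := fun x' hx' => hFV (σ ^ b) g hσg x' hx'
  have hmu : ActsMu r g ((ℓ : ℕ) ^ b) := by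
    intro ζ hζ
    rw [← hσg ζ (hFμ ζ hζ)]
    exact (actsMu_frobenius hr hℓ hℓr hA hσ).pow b ζ hζ
  have hηapply : ∀ y : J, (T ℓ - ((1 + (ℓ : ℕ) : ℕ) : Module.End ℤ J)) y =
      T ℓ y - (1 + (ℓ : ℕ)) • y := by
    intro y
    rw [LinearMap.sub_apply, Module.End.natCast_apply]
  obtain ⟨y, hyU, hy⟩ := quad_pow σ (ℓ : ℕ) U (fun x hx => hUst σ x hx)
    (T ℓ - ((1 + (ℓ : ℕ) : ℕ) : Module.End ℤ J)).toAddMonoidHom
    (fun z => by
      show (T ℓ - ((1 + (ℓ : ℕ) : ℕ) : Module.End ℤ J)) (σ • z) =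
        σ • (T ℓ - ((1 + (ℓ : ℕ) : ℕ) : Module.End ℤ J)) z
      rw [hηapply, hηapply, hTG ℓ σ z, smul_sub, smul_comm σ (1 + (ℓ : ℕ)) z])
    (fun z hz => by
      show _ = (T ℓ - ((1 + (ℓ : ℕ) : ℕ) : Module.End ℤ J)) (σ • z)
      rw [hηapply]
      have h3 := hES ℓ hℓS A hA σ hσ z (hUV hz)
      have h2 : T ℓ (σ • z) = σ • σ • z + (ℓ : ℕ) • z := by
        rw [sub_add_eq_add_sub, sub_eq_zero] at h3
        exact h3.symm
      rw [h2]
      abel) b x hxU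
  rw [hact x (hUV hxU), hact (g • x) (hUV (hUst g x hxU))] at hy
  obtain ⟨c, hc⟩ := ActsMu.dvd_sub hr.ne_zero hga hmu
  refine ⟨⟨ℓ, hℓS⟩, y, hyU, c • (g • x - x),
    U.zsmul_mem (U.sub_mem (hUst g x hxU) hxU) c, ?_⟩
  have hy' : (T ℓ - ((1 + (ℓ : ℕ) : ℕ) : Module.End ℤ J)) y =
      g • g • x - (1 + (ℓ : ℕ) ^ b) • g • x + (ℓ : ℕ) ^ b • x := hy.symm
  show _ = (T ℓ - ((1 + (ℓ : ℕ) : ℕ) : Module.End ℤ J)) y + _
  rw [hy']
  have h4 : r • c • (g • x - x) = ((((ℓ : ℕ) ^ b : ℕ) : ℤ) - (a : ℤ)) • (g • x - x) := by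
    rw [← natCast_zsmul, smul_smul, ← hc]
  rw [h4]
  generalize g • g • x = X2
  generalize g • x = X1
  generalize (ℓ : ℕ) ^ b = Lb
  module

end Fermat.Agent.S15.H
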