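/-
S15, route W, block H: the flag on `V = ε J[n]`, `IsMod` for `V` and `V'`, local flatness of `V`, `V'`.
-/
import Fermat.Agent.S15.H.Eps
import Fermat.Agent.S15.H.Quad
import Fermat.Agent.S15.W.Defs

set_option autoImplicit false
set_option linter.unusedSectionVars false

namespace Fermat.Agent.S15.H

open Fermat.Agent.S15.Sel

universe u

variable {X : D.Ctx} {J : Type u} [AddCommGroup J] [DistribMulAction GQ J] {S : Finset ℕ}
  {H : Hk X J S} {k : ℕ}

/-- LEAF H-F1.  **The flag on `V`** (assembly of `exists_chain`, `quadHyp_of_ES`, `exists_chain_subtype`).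
`haveI := E.finite_V A`.  Apply `exists_chain X.hr E.V.S E.V.st (k := k) _ H.η ..`:
* `hk`: `x ∈ V ⟹ x ∈ tor J (r^k)` (`mem_tor`);
* `EStable H.η V`: for `x ∈ V`: `H.η q x ∈ tor` (`end_mem_tor`) and `ε (η q x) = η q x` by `E.nil`: all `η q'` are nilpotent at `η q x` because they are at `x` and
  `η q'^j (η q x) = η q (η q'^j x)` (commutation on torsion, induction on `j`; commutation of `η`'s from `H.comm` as in `exists_Eps`);
* `hηG`: `H.η_apply`, `H.gal`, `σ • (n • x) = n • σ • x`;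
* `hcomm`: from `H.comm`;  `hnil`: `(E.nil x hx.1).1 hx.2`;
* `hq`: `quadHyp_of_ES hFD X.hr S H.hr E.V.S E.V.st (fun x _ => A.sm x) H.T H.gal (fun q hq A' hA' σ hσ x hx => H.es q hq A' hA' σ hσ k x hx.1)`; its `η` is
  definitionally `H.η` (`Hk.η` unfolds to the same expression: use `show`/`unfold Hk.η`/`funext`).
Then `exists_chain_subtype E.V X.hr.ne_zero s F h0 hs hst hstep`. -/
theorem Eps.exists_flag (hFD : Fermat.Agent.GAL.FrobeniusDensity) (A : Amb X J) (E : Eps H k) :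
    ∃ (s : ℕ) (F : ℕ → AddSubgroup E.V.S), F 0 = ⊥ ∧ F s = ⊤ ∧ (∀ i, GStable (F i)) ∧
      ∀ i < s, IsStep X.r (F i) (F (i + 1)) := by
  have hfin := E.finite_V A
  have hrk : X.r ^ k ≠ 0 := pow_ne_zero _ X.hr.ne_zero
  -- commutation of the `η` on torsion
  have hcommT : ∀ q q' : {q : Nat.Primes // (q : ℕ) ∉ S}, ∀ x ∈ tor J (X.r ^ k),
      H.η q (H.η q' x) = H.η q' (H.η q x) := by
    intro q q' x hx
    simp only [H.η_apply, map_sub, map_nsmul]
    rw [H.comm q.1 q'.1 q.2 q'.2 (X.r ^ k) hrk x hx, smul_sub, smul_sub,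
      smul_comm (1 + ((q.1 : Nat.Primes) : ℕ)) (1 + ((q'.1 : Nat.Primes) : ℕ)) x]
    abel
  have hpow : ∀ (q q' : {q : Nat.Primes // (q : ℕ) ∉ S}) (j : ℕ), ∀ x ∈ tor J (X.r ^ k),
      (H.η q' ^ j) (H.η q x) = H.η q ((H.η q' ^ j) x) := by
    intro q q' j
    induction j with
    | zero => intro x _; simp
    | succ j ih =>
      intro x hx
      rw [pow_succ, Module.End.mul_apply, Module.End.mul_apply, hcommT q' q x hx,
        ih _ (end_mem_tor _ hx)]
  have hηV : EStable H.η E.V.S := by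
    intro q x hx
    refine ⟨end_mem_tor _ hx.1, ?_⟩
    rw [E.nil _ (end_mem_tor _ hx.1)]
    intro q'
    obtain ⟨j, hj⟩ := (E.nil x hx.1).1 hx.2 q'
    exact ⟨j, by rw [hpow q q' j x hx.1, hj, map_zero]⟩
  have hηG : ∀ (q : {q : Nat.Primes // (q : ℕ) ∉ S}) (σ : GQ) (x : J),
      H.η q (σ • x) = σ • H.η q x := by
    intro q σ x
    rw [H.η_apply, H.η_apply, H.gal, smul_sub]
    congr 1
    exact ((DistribSMul.toAddMonoidHom J σ).map_nsmul _ x).symm
  have hq : QuadHyp X.r H.η E.V.S :=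
    quadHyp_of_ES hFD X.hr S H.hr E.V.S E.V.st (fun x _ => A.sm x) H.T H.gal
      (fun q hq A' hA' σ hσ x hx => H.es q hq A' hA' σ hσ k x hx.1)
  obtain ⟨s, F, h0, hs, hst, hstep⟩ := exists_chain X.hr E.V.S E.V.st (k := k)
    (fun x hx => hx.1) H.η hηV hηG (fun q q' x hx => hcommT q q' x hx.1)
    (fun q x hx => (E.nil x hx.1).1 hx.2 q) hq
  exact ⟨s, exists_chain_subtype E.V X.hr.ne_zero s F h0 hs hst hstep⟩

/-- LEAF H-F2.  A `GQ`-stable subgroup of `J[r^k]` is a module in the sense of Theorem D.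
`sm`: `A.sm x` gives a `Finset`; `dd` in the subtype is `0` iff its coercion is (`Subtype.ext`, `GSub.coe_smul`).
`ur`: `A.ur ℓ h1 h2 h3 σ hσ k x _` with `r^k • x = 0` (`smul_zero`). -/
theorem isMod_of_le (A : Amb X J) (W : GSub J) (hW : W.S ≤ tor J (X.r ^ k)) : D.IsMod X W.S := by
  refine ⟨fun x => ?_, fun ℓ h1 h2 h3 σ hσ x => ?_⟩
  · obtain ⟨s, hs⟩ := A.sm (x : J)
    refine ⟨s, fun σ hσ => ?_⟩
    apply Subtype.ext
    have h := hs σ hσ
    rw [dd_apply] at h ⊢
    rw [AddSubgroup.coe_sub, GSub.coe_smul, h, AddSubgroup.coe_zero]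
  · apply Subtype.ext
    rw [GSub.coe_smul]
    have hx : X.r ^ k • (x : J) = 0 := mem_tor.mp (hW x.2)
    exact A.ur ℓ h1 h2 h3 σ hσ k x (by rw [hx, smul_zero])

/-- LEAF H-F3.  Coboundaries of a stable subgroup of `J[r^k]` are flat.
Let `y : W.S`.  `A.flat k y _ z₀ _` with `z₀ σ := ⟨σ • y - y, _⟩ : tor J (r^k)` (`r^k • y = 0` is fixed).  Given `ψ : AddChar W.S Qb`, extend it to `ψ'` on the finite group
`tor J (r^k)` along the inclusion `j : W.S →+ tor J (r^k)` (`W.exists_addChar_comp j hj ψ`, needs `Finite (tor J (r^k))` from `A.fin`); `z₀ σ = j (dd y σ)`, so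
`ψ (dd y t⁻¹) = ψ' (z₀ t⁻¹)` and the function in `D.FlatCoc` is the same (`funext`). -/
theorem flat_dd (A : Amb X J) (W : GSub J) (hW : W.S ≤ tor J (X.r ^ k)) (y : W.S) :
    D.FlatCoc X.S (dd y) := by
  have hy : X.r ^ k • (y : J) = 0 := mem_tor.mp (hW y.2)
  have hfin : Finite (tor J (X.r ^ k)) := A.fin _ (pow_ne_zero _ X.hr.ne_zero)
  have hj : Function.Injective (AddSubgroup.inclusion hW) := AddSubgroup.inclusion_injective hW
  have hflat := A.flat k (y : J) (fun σ => by rw [hy, smul_zero])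
    (fun σ => AddSubgroup.inclusion hW (dd y σ)) (fun σ => rfl)
  intro ψ
  obtain ⟨ψ', hψ'⟩ := Fermat.Agent.S15.W.exists_addChar_comp (AddSubgroup.inclusion hW) hj ψ
  have h := hflat ψ'
  simp only [hψ'] at h
  exact h

end Fermat.Agent.S15.H
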