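/-
S15, route W, block H: the perfect pairing `V × V' → μ_n`, the subgroups `K_V = ε K`, `K' = K ⊓ V'`, almost isotropy, and the three bounded cardinalities.
-/
import Fermat.Agent.S15.H.Eps

set_option autoImplicit false
set_option linter.unusedSectionVars false

noncomputable section

namespace Fermat.Agent.S15.H

open Fermat.Agent.S15.Sel

universe u

/-- LEAF H-P0 (PURE MATHLIB).  A right non degenerate bimultiplicative pairing on a finite abelian group represents every character.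
Proof: `Φ : G → (Multiplicative G →* Qbˣ)` (or `AddChar G Qb`), `y ↦ e · y`, is injective (`hnd` + `hr`: `Φ y = Φ y'` ⟹ `e x (y - y') = 1` for all `x`; first derive `e x 0 = 1`,
`e x (-y) = (e x y)⁻¹`).  `Nat.card (AddChar G Qb) = Nat.card G`: `CommGroup.monoidHom_mulEquiv_of_hasEnoughRootsOfUnity` (file `Mathlib/GroupTheory/FiniteAbelian/Duality.lean`;
`HasEnoughRootsOfUnity Qb n` is an instance for algebraically closed fields, `NeZero ((n : ℕ) : Qb)` from `CharZero` and `Monoid.exponent ≠ 0`), see how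
`Fermat.Agent.S15.W.exists_addChar_comp` (`S15/W/Defs.lean`) and `S15/Sel/ArChar.lean` set this up.  An injective map between finite types of the same cardinality is surjective
(`Finite.injective_iff_surjective_of_equiv` / `Function.Injective.bijective_of_nat_card_le`). -/
theorem exists_rep_char {G : Type*} [AddCommGroup G] [Finite G] (e : G → G → Qbˣ)
    (hl : ∀ x x' y, e (x + x') y = e x y * e x' y) (hr : ∀ x y y', e x (y + y') = e x y * e x y')
    (hnd : ∀ y, (∀ x, e x y = 1) → y = 0) (φ : AddChar G Qb) :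
    ∃ y : G, ∀ x, ((e x y : Qbˣ) : Qb) = φ x := by
  classical
  have hne : Monoid.exponent (Multiplicative G) ≠ 0 := Monoid.exponent_ne_zero_of_finite
  have : NeZero ((Monoid.exponent (Multiplicative G) : ℕ) : Qb) := ⟨Nat.cast_ne_zero.2 hne⟩
  obtain ⟨E⟩ := CommGroup.monoidHom_mulEquiv_of_hasEnoughRootsOfUnity (Multiplicative G) Qb
  have h0 : ∀ x, e x 0 = 1 := by
    intro x
    have := hr x 0 0
    rw [add_zero] at this
    exact (mul_eq_left.1 this.symm)
  have hneg : ∀ x y, e x (-y) = (e x y)⁻¹ := by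
    intro x y
    have := hr x y (-y)
    rw [add_neg_cancel, h0] at this
    exact (eq_inv_of_mul_eq_one_right this.symm)
  have hl0 : ∀ y, e 0 y = 1 := by
    intro y
    have := hl 0 0 y
    rw [add_zero] at this
    exact (mul_eq_left.1 this.symm)
  let Φ : G → (Multiplicative G →* Qbˣ) := fun y =>
    { toFun := fun x => e (Multiplicative.toAdd x) y
      map_one' := hl0 y
      map_mul' := fun a b => hl _ _ y }
  have hinj : Function.Injective Φ := by
    intro y y' h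
    have : y - y' = 0 := by
      apply hnd
      intro x
      have hx : e x y = e x y' := DFunLike.congr_fun h (Multiplicative.ofAdd x)
      rw [sub_eq_add_neg, hr, hneg, hx, mul_inv_cancel]
    exact sub_eq_zero.1 this
  have hfin : Finite (Multiplicative G →* Qbˣ) := Finite.of_equiv _ E.symm.toEquiv
  have hsurj : Function.Surjective Φ := by
    have hb := Function.Injective.bijective_of_nat_card_le hinj (by
      rw [Nat.card_congr E.toEquiv]
      exact le_of_eq (Nat.card_congr Multiplicative.toAdd))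
    exact hb.2
  let ψ : Multiplicative G →* Qbˣ := (AddChar.toMonoidHomEquiv φ).toHomUnits
  obtain ⟨y, hy⟩ := hsurj ψ
  refine ⟨y, fun x => ?_⟩
  have := DFunLike.congr_fun hy (Multiplicative.ofAdd x)
  have h2 : e x y = ψ (Multiplicative.ofAdd x) := this
  rw [h2]
  simp [ψ]

variable {X : D.Ctx} {J : Type u} [AddCommGroup J] [DistribMulAction GQ J] {S : Finset ℕ}
  {H : Hk X J S} {k : ℕ}

/-- the pairing `V × V' → Qbˣ`. -/
def Eps.ee (A : Amb X J) (E : Eps H k) (x : E.V.S) (y : (E.V' A).S) : Qbˣ :=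
  A.e (X.r ^ k) (x : J) (y : J)

theorem Eps.ee_add_left (A : Amb X J) (E : Eps H k) (x x' : E.V.S) (y : (E.V' A).S) :
    E.ee A (x + x') y = E.ee A x y * E.ee A x' y :=
  A.e_add_left _ _ _ _ x.2.1 x'.2.1 y.2.1

theorem Eps.ee_add_right (A : Amb X J) (E : Eps H k) (x : E.V.S) (y y' : (E.V' A).S) :
    E.ee A x (y + y') = E.ee A x y * E.ee A x y' :=
  A.e_add_right _ _ _ _ x.2.1 y.2.1 y'.2.1

theorem Eps.ee_gal (A : Amb X J) (E : Eps H k) (σ : GQ) (x : E.V.S) (y : (E.V' A).S) :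
    ((E.ee A (σ • x) (σ • y) : Qbˣ) : Qb) = σ ((E.ee A x y : Qbˣ) : Qb) :=
  A.e_gal _ σ _ _

/-- LEAF H-P1.  Right non degeneracy.  For `m ∈ tor J n`: `m = ε m + (m - ε m)`, `ε m ∈ V` (`E.ε_mem_V`), `m - ε m ∈ V''` (`E.sub_ε_mem_V2`), so
`e m y = e (ε m) y * e (m - ε m) y = 1 * 1` (`A.e_add_left`, hypothesis `h ⟨ε m, _⟩`, `y.2.2`).  Then `A.e_nd_right k y y.2.1`. -/
theorem Eps.ee_nd_right (A : Amb X J) (E : Eps H k) (y : (E.V' A).S)
    (h : ∀ x : E.V.S, E.ee A x y = 1) : y = 0 := by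
  apply Subtype.ext
  refine A.e_nd_right k y y.2.1 fun m hm => ?_
  have h1 : m = E.ε m + (m - E.ε m) := by abel
  rw [h1, A.e_add_left _ _ _ _ (E.ε_mem_V hm).1 (E.sub_ε_mem_V2 hm).1 y.2.1,
    y.2.2 _ (E.sub_ε_mem_V2 hm), mul_one]
  exact h ⟨E.ε m, E.ε_mem_V hm⟩

/-- characters separate points (copy of `Sel.exists_char_ne_one`, to keep the imports of this file small). -/
theorem pair_exists_char_ne_one {V : Type*} [AddCommGroup V] [Finite V] {x : V} (hx : x ≠ 0) :
    ∃ ψ : AddChar V Qb, ψ x ≠ 1 := by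
  have hne : Monoid.exponent (Multiplicative V) ≠ 0 := Monoid.exponent_ne_zero_of_finite
  have : NeZero ((Monoid.exponent (Multiplicative V) : ℕ) : Qb) := ⟨Nat.cast_ne_zero.2 hne⟩
  obtain ⟨φ, hφ⟩ := CommGroup.exists_apply_ne_one_of_hasEnoughRootsOfUnity (Multiplicative V) Qb
    (a := Multiplicative.ofAdd x) (by simpa using hx)
  refine ⟨AddChar.toMonoidHomEquiv.symm ((Units.coeHom Qb).comp φ), ?_⟩
  intro h
  apply hφ
  ext
  simpa using h

/-- LEAF H-P2.  Left non degeneracy.  Let `M := tor J n` (a finite type by `A.fin`).  Suppose `x ≠ 0`.  Characters separate points: there is `φ : AddChar M Qb` with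
`φ ⟨x, _⟩ ≠ 1` (`S15/Sel/ArChar.lean`, or `AddChar.exists_apply_ne_zero`-type lemma / `CommGroup.exists_apply_ne_one_of_hasEnoughRootsOfUnity`).  `φ' := φ ∘ ε` (`ε` restricted to `M →+ M`,
`AddChar.compAddMonoidHom`).  `exists_rep_char` for `e := fun a b : M => A.e n a b` (right non degenerate by `A.e_nd_right`) gives `y : M` with `e a y = φ (ε a)` for all `a`.
`y ∈ V'`: for `a ∈ V''`, `ε a = 0`, `φ 0 = 1`.  `e x y = φ (ε x) = φ x ≠ 1`: contradiction with `h ⟨y, _⟩`. -/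
theorem Eps.ee_nd_left (A : Amb X J) (E : Eps H k) (x : E.V.S)
    (h : ∀ y : (E.V' A).S, E.ee A x y = 1) : x = 0 := by
  have hfin : Finite (tor J (X.r ^ k)) := A.fin (X.r ^ k) (pow_ne_zero _ X.hr.ne_zero)
  by_contra hx
  have hx' : (⟨(x : J), x.2.1⟩ : tor J (X.r ^ k)) ≠ 0 := by
    intro h0
    apply hx
    apply Subtype.ext
    exact congrArg (fun z : tor J (X.r ^ k) => (z : J)) h0
  obtain ⟨φ, hφ⟩ := pair_exists_char_ne_one hx'
  -- `ε` restricted to the torsion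
  let εM : tor J (X.r ^ k) →+ tor J (X.r ^ k) :=
    { toFun := fun a => ⟨E.ε a, end_mem_tor _ a.2⟩
      map_zero' := Subtype.ext (map_zero _)
      map_add' := fun a b => Subtype.ext (map_add _ _ _) }
  obtain ⟨y, hy⟩ := exists_rep_char (G := tor J (X.r ^ k))
    (fun a b => A.e (X.r ^ k) (a : J) (b : J))
    (fun a a' b => A.e_add_left _ _ _ _ a.2 a'.2 b.2)
    (fun a b b' => A.e_add_right _ _ _ _ a.2 b.2 b'.2)
    (fun b hb => Subtype.ext (A.e_nd_right k b b.2 fun a ha => hb ⟨a, ha⟩))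
    (φ.compAddMonoidHom εM)
  have hyV' : (y : J) ∈ (E.V' A).S := by
    refine ⟨y.2, fun a ha => ?_⟩
    apply Units.ext
    have h1 := hy ⟨a, ha.1⟩
    rw [AddChar.compAddMonoidHom_apply] at h1
    have h2 : εM ⟨a, ha.1⟩ = 0 := Subtype.ext ha.2
    rw [h2, AddChar.map_zero_eq_one] at h1
    exact h1
  have h3 := hy ⟨x, x.2.1⟩
  rw [AddChar.compAddMonoidHom_apply] at h3
  have h4 : εM ⟨x, x.2.1⟩ = ⟨x, x.2.1⟩ := Subtype.ext x.2.2
  rw [h4] at h3
  apply hφ
  rw [← h3]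
  have h5 := h ⟨y, hyV'⟩
  have h6 : A.e (X.r ^ k) (x : J) (y : J) = 1 := h5
  rw [h6]
  rfl

/-- `K_V = ε K`. -/
def Eps.KV (A : Amb X J) (E : Eps H k) : AddSubgroup E.V.S :=
  ((A.K (X.r ^ k)).map E.ε.toAddMonoidHom).addSubgroupOf E.V.S

/-- `K' = K ⊓ V'`. -/
def Eps.KV' (A : Amb X J) (E : Eps H k) : AddSubgroup (E.V' A).S :=
  (A.K (X.r ^ k)).addSubgroupOf (E.V' A).S

/-- LEAF H-P3.  `(σ - 1) V ⊆ K_V` for `σ ∈ I_N`: `w := σ • x - x ∈ K n` by `A.K_kum n _ σ hσ x _` (`n • x = 0`), and `ε w = w` (`E.gal`, `x.2.2`), so `w = ε w ∈ ε K`.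
(`AddSubgroup.mem_addSubgroupOf`, `AddSubgroup.mem_map`.) -/
theorem Eps.sub_mem_KV (A : Amb X J) (E : Eps H k) (σ : GQ) (hσ : σ ∈ Ine (X.P.pl X.N))
    (x : E.V.S) : σ • x - x ∈ E.KV A := by
  have hn : 0 < X.r ^ k := pow_pos X.hr.pos k
  have hx0 : X.r ^ k • (x : J) = 0 := mem_tor.1 x.2.1
  have hw : σ • (x : J) - (x : J) ∈ A.K (X.r ^ k) :=
    A.K_kum _ hn σ hσ x (by rw [hx0, smul_zero])
  rw [Eps.KV, AddSubgroup.mem_addSubgroupOf, AddSubgroup.mem_map]
  refine ⟨σ • (x : J) - x, hw, ?_⟩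
  have h1 : E.ε (σ • (x : J) - x) = σ • (x : J) - x := by
    rw [map_sub, E.gal, x.2.2]
  exact h1

/-- LEAF H-P3'.  Same for `V'` (no `ε`). -/
theorem Eps.sub_mem_KV' (A : Amb X J) (E : Eps H k) (σ : GQ) (hσ : σ ∈ Ine (X.P.pl X.N))
    (y : (E.V' A).S) : σ • y - y ∈ E.KV' A := by
  have hn : 0 < X.r ^ k := pow_pos X.hr.pos k
  have hy0 : X.r ^ k • (y : J) = 0 := mem_tor.1 y.2.1
  rw [Eps.KV', AddSubgroup.mem_addSubgroupOf]
  exact A.K_kum _ hn σ hσ y (by rw [hy0, smul_zero])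

/-- LEAF H-P4.  Almost isotropy.  `x = ε a`, `a ∈ K n`; `a = ε a + (a - ε a)`, `a - ε a ∈ V''`, `y ∈ V'`, so `e a y = e (ε a) y` (`A.e_add_left`, `y.2.2`); `e a y ^ e0 = 1` by `A.K_iso`. -/
theorem Eps.iso (A : Amb X J) (E : Eps H k) (x : E.V.S) (hx : x ∈ E.KV A) (y : (E.V' A).S)
    (hy : y ∈ E.KV' A) : E.ee A x y ^ A.e0 = 1 := by
  rw [Eps.KV, AddSubgroup.mem_addSubgroupOf, AddSubgroup.mem_map] at hx
  rw [Eps.KV', AddSubgroup.mem_addSubgroupOf] at hy
  obtain ⟨a, ha, hax⟩ := hx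
  have hax' : E.ε a = (x : J) := hax
  have hat : a ∈ tor J (X.r ^ k) := A.K_le _ ha
  have h1 : A.e (X.r ^ k) a y = A.e (X.r ^ k) (E.ε a) y := by
    have h2 := A.e_add_left (X.r ^ k) (E.ε a) (a - E.ε a) y (end_mem_tor _ hat)
      (E.sub_ε_mem_V2 hat).1 y.2.1
    rw [add_sub_cancel, y.2.2 _ (E.sub_ε_mem_V2 hat), mul_one] at h2
    exact h2
  rw [Eps.ee, ← hax', ← h1]
  exact A.K_iso k a ha y hy

/-- LEAF H-P5.  The three bounded cardinalities (injections into the finite groups `ratTor J`, `tor J e0`; `Nat.card_le_card_of_injective`, `A.finQ`, `A.fin`). -/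
theorem card_fix_le (A : Amb X J) (W : GSub J) (hW : W.S ≤ tor J (X.r ^ k)) :
    Nat.card {x : W.S // ∀ σ : GQ, σ • x = x} ≤ Nat.card (ratTor J) := by
  have := A.finQ
  refine Nat.card_le_card_of_injective
    (fun x : {x : W.S // ∀ σ : GQ, σ • x = x} =>
      (⟨((x : W.S) : J), fun σ => congrArg Subtype.val (x.2 σ), X.r ^ k,
        pow_ne_zero _ X.hr.ne_zero, hW x.1.2⟩ : ratTor J)) ?_
  intro x y h
  have h' : ((x : W.S) : J) = ((y : W.S) : J) := congrArg (fun z : ratTor J => (z : J)) h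
  exact Subtype.ext (Subtype.ext h')

theorem card_tor_le (A : Amb X J) (W : GSub J) :
    Nat.card {x : W.S // A.e0 • x = 0} ≤ Nat.card (tor J A.e0) := by
  have := A.fin A.e0 A.e0_ne
  refine Nat.card_le_card_of_injective
    (fun x : {x : W.S // A.e0 • x = 0} =>
      (⟨((x : W.S) : J), congrArg Subtype.val x.2⟩ : tor J A.e0)) ?_
  intro x y h
  have h' : ((x : W.S) : J) = ((y : W.S) : J) := congrArg (fun z : tor J A.e0 => (z : J)) h
  exact Subtype.ext (Subtype.ext h')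

end Fermat.Agent.S15.H

end
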