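/-
S15, route W, block APP: the `ε`-part of the Kummer cocycle of `2 P`, `P ∈ J(ℚ)`, lies in the group `ZZ X K_V C ⊤` counted by Theorem D.
-/
import Fermat.Agent.S15.H.Pair
import Fermat.Agent.S15.H.Flag

set_option autoImplicit false
set_option linter.unusedSectionVars false

noncomputable section

namespace Fermat.Agent.S15.H

open Fermat.Agent.S15.Sel

universe u

variable {X : D.Ctx} {J : Type u} [AddCommGroup J] [DistribMulAction GQ J] {S : Finset ℕ}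
  {H : Hk X J S} {k : ℕ}

/-- `C = (cc - 1) V`. -/
def Eps.CC (E : Eps H k) : AddSubgroup E.V.S where
  carrier := {x | ∃ v : E.V.S, x = X.cc • v - v}
  zero_mem' := ⟨0, by simp⟩
  add_mem' := by
    rintro _ _ ⟨v, rfl⟩ ⟨w, rfl⟩
    exact ⟨v + w, by rw [smul_add]; abel⟩
  neg_mem' := by
    rintro _ ⟨v, rfl⟩
    exact ⟨-v, by rw [smul_neg]; abel⟩

theorem Eps.mem_CC (E : Eps H k) {x : E.V.S} : x ∈ E.CC ↔ ∃ v : E.V.S, x = X.cc • v - v := Iff.rfl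

/-- the division point `x₁` and its Kummer cocycle, projected by `ε`. -/
structure IsKum (E : Eps H k) (x₁ : J) (z : GQ → E.V.S) : Prop where
  val : ∀ σ, (z σ : J) = E.ε (σ • x₁ - x₁)

/-- existence of the `V`-valued function. -/
theorem exists_isKum (E : Eps H k) (x₁ : J) (h : ∀ σ : GQ, σ • (X.r ^ k • x₁) = X.r ^ k • x₁) :
    ∃ z : GQ → E.V.S, IsKum E x₁ z := by
  refine ⟨fun σ => ⟨E.ε (σ • x₁ - x₁), E.ε_mem_V ?_⟩, ⟨fun σ => rfl⟩⟩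
  rw [mem_tor, smul_sub, sub_eq_zero, ← h σ]
  exact ((DistribSMul.toAddMonoidHom J σ).map_nsmul _ x₁).symm

/-- LEAF H-U1.  cocycle + smooth + unramified + condition at `N`.
`coc`: `Subtype.ext`; `σ τ x₁ - x₁ = (σ x₁ - x₁) + σ (τ x₁ - x₁)`, `map_add`, `E.gal`.
`sm`: `A.sm x₁` gives `s`; if `σ` fixes `s` then `σ • x₁ - x₁ = 0`, `map_zero`.
`ur`: `A.ur ℓ _ _ _ σ hσ k x₁ (h σ)` gives `σ • x₁ = x₁`.
`atN`: `σ • x₁ - x₁ ∈ A.K n` by `A.K_kum n (pow_pos ..) σ hσ x₁ (h σ)`; then `AddSubgroup.mem_addSubgroupOf`, `AddSubgroup.mem_map`. -/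
theorem IsKum.basic (A : Amb X J) (E : Eps H k) {x₁ : J} {z : GQ → E.V.S} (hz : IsKum E x₁ z)
    (h : ∀ σ : GQ, σ • (X.r ^ k • x₁) = X.r ^ k • x₁) :
    IsCoc z ∧ IsSm z ∧
      (∀ ℓ : ℕ, ℓ.Prime → ℓ ≠ X.r → ℓ ≠ X.N → ∀ σ ∈ Ine (X.P.pl ℓ), z σ = 0) ∧
      (∀ σ ∈ Ine (X.P.pl X.N), z σ ∈ E.KV A) := by
  refine ⟨?_, ?_, ?_, ?_⟩
  · intro σ τ
    apply Subtype.ext
    rw [AddSubgroup.coe_add, GSub.coe_smul, hz.val, hz.val, hz.val, ← E.gal, ← map_add]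
    congr 1
    rw [mul_smul, smul_sub]
    abel
  · obtain ⟨s, hs⟩ := A.sm x₁
    refine ⟨s, fun σ hσ => ?_⟩
    apply Subtype.ext
    have h1 := hs σ hσ
    rw [dd_apply] at h1
    rw [hz.val, h1, map_zero]
    rfl
  · intro ℓ hℓ h1 h2 σ hσ
    apply Subtype.ext
    rw [hz.val, A.ur ℓ hℓ h1 h2 σ hσ k x₁ (h σ), sub_self, map_zero]
    rfl
  · intro σ hσ
    have h1 := A.K_kum (X.r ^ k) (pow_pos X.hr.pos k) σ hσ x₁ (h σ)
    rw [Eps.KV, AddSubgroup.mem_addSubgroupOf, AddSubgroup.mem_map]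
    exact ⟨_, h1, (hz.val σ).symm⟩

/-- LEAF H-U2.  The condition at `∞` when `x₁ = 2 • x₂`.  `w := cc • x₂ - x₂ ∈ tor J n` (as in `exists_isKum`); `cc • w = - w` (`A.cc_sq`: `cc • cc • x₂ = x₂`, `mul_smul`);
`cc • x₁ - x₁ = 2 • w = w - cc • w`; so `z cc = ε w - cc • ε w = cc • v - v` with `v := - ε w ∈ V` (`E.ε_mem_V`, `E.gal`). -/
theorem IsKum.atoo (A : Amb X J) (E : Eps H k) {x₂ : J} {z : GQ → E.V.S}
    (hz : IsKum E (2 • x₂) z) (h : ∀ σ : GQ, σ • (X.r ^ k • x₂) = X.r ^ k • x₂) :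
    z X.cc ∈ E.CC := by
  set w : J := X.cc • x₂ - x₂ with hw
  have hwt : w ∈ tor J (X.r ^ k) := by
    rw [mem_tor, hw, smul_sub, sub_eq_zero, ← h X.cc]
    exact ((DistribSMul.toAddMonoidHom J X.cc).map_nsmul _ x₂).symm
  have hcw : X.cc • w = - w := by
    rw [hw, smul_sub, ← mul_smul, A.cc_sq, one_smul]
    abel
  rw [E.mem_CC]
  refine ⟨-⟨E.ε w, E.ε_mem_V hwt⟩, Subtype.ext ?_⟩
  rw [hz.val]
  have e1 : X.cc • (2 • x₂) - 2 • x₂ = 2 • w := by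
    rw [hw, two_nsmul, two_nsmul, smul_add]
    abel
  rw [e1, map_nsmul]
  simp only [AddSubgroup.coe_sub, GSub.coe_smul, AddSubgroup.coe_neg]
  rw [smul_neg, ← E.gal, hcw, map_neg, two_nsmul]
  abel

/-- LEAF H-U3.  Flatness.  `z₀ σ := ⟨σ • x₁ - x₁, _⟩ : tor J n` is flat by `A.flat k x₁ h z₀ (fun _ => rfl)`.  `f : tor J n →+ E.V.S`, `m ↦ ⟨ε m, E.ε_mem_V m.2⟩`.  `z = f ∘ z₀`.
For `ψ : AddChar E.V.S Qb` use `ψ.compAddMonoidHom f` (same as `W.FlatCoc.map`). -/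
theorem IsKum.flat (A : Amb X J) (E : Eps H k) {x₁ : J} {z : GQ → E.V.S} (hz : IsKum E x₁ z)
    (h : ∀ σ : GQ, σ • (X.r ^ k • x₁) = X.r ^ k • x₁) : D.FlatCoc X.S z := by
  have hmem : ∀ σ : GQ, σ • x₁ - x₁ ∈ tor J (X.r ^ k) := by
    intro σ
    rw [mem_tor, smul_sub, sub_eq_zero, ← h σ]
    exact ((DistribSMul.toAddMonoidHom J σ).map_nsmul _ x₁).symm
  have h0 := A.flat k x₁ h (fun σ => ⟨σ • x₁ - x₁, hmem σ⟩) (fun _ => rfl)
  let f : tor J (X.r ^ k) →+ E.V.S :=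
    { toFun := fun m => ⟨E.ε m, E.ε_mem_V m.2⟩
      map_zero' := Subtype.ext (map_zero _)
      map_add' := fun a b => Subtype.ext (map_add _ _ _) }
  intro ψ
  have h1 := h0 (ψ.compAddMonoidHom f)
  have e : ∀ t : GQ, z t = f ⟨t • x₁ - x₁, hmem t⟩ := fun t => Subtype.ext (hz.val t)
  have e2 : (fun t : GQ => t (ψ (z t⁻¹))) =
      fun t => t ((ψ.compAddMonoidHom f) ⟨t⁻¹ • x₁ - x₁, hmem t⁻¹⟩) := by
    funext t
    rw [e t⁻¹]
    rfl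
  rw [e2]
  exact h1

theorem IsKum.mem_ZZ (A : Amb X J) (E : Eps H k) {x₂ : J} {z : GQ → E.V.S}
    (hz : IsKum E (2 • x₂) z) (h : ∀ σ : GQ, σ • (X.r ^ k • x₂) = X.r ^ k • x₂) :
    z ∈ D.ZZ X (E.KV A) E.CC ⊤ := by
  have h2 : ∀ σ : GQ, σ • (X.r ^ k • (2 • x₂)) = X.r ^ k • (2 • x₂) := by
    intro σ
    rw [smul_comm (X.r ^ k) 2 x₂]
    have := (DistribSMul.toAddMonoidHom J σ).map_nsmul 2 (X.r ^ k • x₂)
    rw [DistribSMul.toAddMonoidHom_apply, DistribSMul.toAddMonoidHom_apply] at this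
    rw [this, h σ]
  obtain ⟨h1, h3, h4, h5⟩ := hz.basic A E h2
  exact
    { coc := h1
      sm := h3
      mem := fun _ => AddSubgroup.mem_top _
      ur := h4
      atN := h5
      atoo := hz.atoo A E h
      flat := hz.flat A E h2 }

end Fermat.Agent.S15.H

end
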