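/-
S15, route W, block APP: the abstract form of `CoreBound` from Cor D'.
-/
import Fermat.Agent.S15.H.Kum

set_option autoImplicit false
set_option linter.unusedSectionVars false

noncomputable section

namespace Fermat.Agent.S15.H

open Fermat.Agent.S15.Sel

universe u

/-- **The shape of Cor D' consumed by APP** (block D, helper66). -/
def CorDStmt : Prop :=
  ∀ (X : D.Ctx), X.cc * X.cc = 1 →
  ∀ (V V' : Type u) [AddCommGroup V] [DistribMulAction GQ V] [Finite V]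
    [AddCommGroup V'] [DistribMulAction GQ V'] [Finite V'],
    D.IsMod X V → D.IsMod X V' →
  ∀ (e : V → V' → Qbˣ),
    (∀ x x' y, e (x + x') y = e x y * e x' y) → (∀ x y y', e x (y + y') = e x y * e x y') →
    (∀ (σ : GQ) x y, ((e (σ • x) (σ • y) : Qbˣ) : Qb) = σ ((e x y : Qbˣ) : Qb)) →
    (∀ x, (∀ y, e x y = 1) → x = 0) → (∀ y, (∀ x, e x y = 1) → y = 0) →
  ∀ (s : ℕ) (F : ℕ → AddSubgroup V), F 0 = ⊥ → F s = ⊤ → (∀ i, GStable (F i)) →
    (∀ i < s, IsStep X.r (F i) (F (i + 1))) →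
  ∀ (K : AddSubgroup V) (K' : AddSubgroup V'),
    (∀ σ ∈ Ine (X.P.pl X.N), ∀ x : V, σ • x - x ∈ K) →
    (∀ σ ∈ Ine (X.P.pl X.N), ∀ y : V', σ • y - y ∈ K') →
  ∀ (e0 : ℕ), (∀ x ∈ K, ∀ y ∈ K', e x y ^ e0 = 1) →
    (∀ x : V, D.FlatCoc X.S (dd x)) → (∀ y : V', D.FlatCoc X.S (dd y)) →
  ∀ (C : AddSubgroup V), (∀ x, x ∈ C ↔ ∃ v : V, x = X.cc • v - v) →
  ∀ z ∈ D.ZZ X K C ⊤, ∃ m : ℕ, 0 < m ∧
    m ≤ Nat.card {x : V // ∀ σ : GQ, σ • x = x} * Nat.card {y : V' // ∀ σ : GQ, σ • y = y} *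
      Nat.card {y : V' // e0 • y = 0} ∧ ∃ v : V, m • z = dd v

variable {X : D.Ctx} {J : Type u} [AddCommGroup J] [DistribMulAction GQ J] {S : Finset ℕ}

/-- the uniform bound. -/
def Amb.B (A : Amb X J) : ℕ := Nat.card (ratTor J) * Nat.card (ratTor J) * Nat.card (tor J A.e0)

/-- the constant of `CoreBound`. -/
def Amb.C (A : Amb X J) : ℕ := 2 * A.B.factorial

theorem Amb.C_ne_zero (A : Amb X J) : A.C ≠ 0 :=
  mul_ne_zero two_ne_zero (Nat.factorial_ne_zero _)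

/-- one level. -/
theorem core_level (hD : CorDStmt.{u}) (hFD : Fermat.Agent.GAL.FrobeniusDensity) (A : Amb X J)
    (H : Hk X J S) (k : ℕ) (E : Eps H k) (P : J) (hP : P ∈ fixG J) :
    ∃ y ∈ fixG J, X.r ^ k • y = A.C • E.ε P := by
  have hn : X.r ^ k ≠ 0 := pow_ne_zero _ X.hr.ne_zero
  obtain ⟨x₂, hx₂⟩ := A.div (X.r ^ k) hn P
  have hfix : ∀ σ : GQ, σ • (X.r ^ k • x₂) = X.r ^ k • x₂ := fun σ => by rw [hx₂]; exact hP σ
  have hfix2 : ∀ σ : GQ, σ • (X.r ^ k • (2 • x₂)) = X.r ^ k • (2 • x₂) := by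
    intro σ
    rw [smul_comm (X.r ^ k) 2 x₂]
    have := (DistribSMul.toAddMonoidHom J σ).map_nsmul 2 (X.r ^ k • x₂)
    rw [DistribSMul.toAddMonoidHom_apply, DistribSMul.toAddMonoidHom_apply] at this
    rw [this, hfix σ]
  obtain ⟨z, hz⟩ := exists_isKum E (2 • x₂) hfix2
  have hzZ := hz.mem_ZZ A E hfix
  haveI := E.finite_V A
  haveI := E.finite_V' A
  have hVle : E.V.S ≤ tor J (X.r ^ k) := fun x hx => hx.1
  have hV'le : (E.V' A).S ≤ tor J (X.r ^ k) := fun x hx => hx.1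
  obtain ⟨s, F, h0, hs, hst, hstep⟩ := E.exists_flag hFD A
  obtain ⟨m, hm0, hmle, v, hv⟩ := hD X A.cc_sq E.V.S (E.V' A).S (isMod_of_le A E.V hVle)
    (isMod_of_le A (E.V' A) hV'le) (E.ee A) (E.ee_add_left A) (E.ee_add_right A) (E.ee_gal A)
    (E.ee_nd_left A) (E.ee_nd_right A) s F h0 hs hst hstep (E.KV A) (E.KV' A) (E.sub_mem_KV A)
    (E.sub_mem_KV' A) A.e0 (E.iso A) (flat_dd A E.V hVle) (flat_dd A (E.V' A) hV'le) E.CC
    (fun x => E.mem_CC) z hzZ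
  have hmB : m ≤ A.B :=
    hmle.trans (Nat.mul_le_mul (Nat.mul_le_mul (card_fix_le A E.V hVle)
      (card_fix_le A (E.V' A) hV'le)) (card_tor_le A (E.V' A)))
  obtain ⟨c, hc⟩ : m ∣ A.B.factorial := Nat.dvd_factorial hm0 hmB
  -- `B! • z = dd (c • v)`
  have hv' : ∀ σ : GQ, A.B.factorial • E.ε (σ • (2 • x₂) - 2 • x₂) = σ • ((c • v : E.V.S) : J) - ((c • v : E.V.S) : J) := by
    intro σ
    have h1 := congrFun hv σ
    have h2 : (((m • z) σ : E.V.S) : J) = m • E.ε (σ • (2 • x₂) - 2 • x₂) := by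
      rw [Pi.smul_apply, AddSubgroup.coe_nsmul, hz.val]
    have h3 : ((dd v σ : E.V.S) : J) = σ • (v : J) - (v : J) := rfl
    rw [h1, h3] at h2
    rw [hc, mul_comm m c, mul_smul, ← h2, AddSubgroup.coe_nsmul, smul_sub]
    congr 1
    exact ((DistribSMul.toAddMonoidHom J σ).map_nsmul c (v : J)).symm
  refine ⟨A.B.factorial • E.ε (2 • x₂) - ((c • v : E.V.S) : J), ?_, ?_⟩
  · intro σ
    have h1 := hv' σ
    rw [map_sub, E.gal, smul_sub] at h1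
    have h4 : σ • (A.B.factorial • E.ε (2 • x₂)) = A.B.factorial • σ • E.ε (2 • x₂) :=
      (DistribSMul.toAddMonoidHom J σ).map_nsmul _ _
    rw [smul_sub, h4]
    have h5 : A.B.factorial • σ • E.ε (2 • x₂) - σ • ((c • v : E.V.S) : J) -
        (A.B.factorial • E.ε (2 • x₂) - ((c • v : E.V.S) : J)) = 0 := by
      rw [sub_sub_sub_comm, h1, sub_self]
    exact sub_eq_zero.mp h5
  · have h6 : X.r ^ k • ((c • v : E.V.S) : J) = 0 := (c • v : E.V.S).2.1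
    rw [smul_sub, h6, sub_zero, smul_comm, ← map_nsmul, smul_comm (X.r ^ k) 2 x₂, hx₂, map_nsmul,
      Amb.C, mul_comm 2, mul_smul]

/-- **The abstract CoreBound.** -/
theorem core_abs (hD : CorDStmt.{u}) (hFD : Fermat.Agent.GAL.FrobeniusDensity) (A : Amb X J)
    (H : Hk X J S) :
    ∃ C : ℕ, C ≠ 0 ∧ ∀ k : ℕ, ∃ ε ∈ H.alg, (∀ x : J, (∀ q, H.η q x = 0) → ε x = x) ∧
      ∀ P ∈ fixG J, ∃ y ∈ fixG J, X.r ^ k • y = C • ε P := by
  refine ⟨A.C, A.C_ne_zero, fun k => ?_⟩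
  obtain ⟨E⟩ := exists_Eps A H k
  exact ⟨E.ε, E.mem, E.fix, fun P hP => core_level hD hFD A H k E P hP⟩

end Fermat.Agent.S15.H

end
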