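/-
S15, route W, block APP: `CorDStmt` (the shape of Cor D' consumed by `H/App.lean`) from `D.corD'`.
-/
import Fermat.Agent.S15.H.App
import Fermat.Agent.S15.D.CorD

set_option autoImplicit false
set_option linter.unusedSectionVars false

noncomputable section

namespace Fermat.Agent.S15.H

open Fermat.Agent.S15.Sel

universe u

theorem corDStmt : CorDStmt.{u} := by
  intro X hcc V V' _ _ _ _ _ _ hV hV' e hal har hgal hndl hndr s F h0 hs hst hstep K K' hK hK' e0
    hiso hfl hfl' C hC z hz
  let p : D.Pairing V V' :=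
    { e := fun x y => ((e x y : Qbˣ) : Qb)
      add_left := fun x y x' => by rw [hal, Units.val_mul]
      add_right := fun x x' y' => by rw [har, Units.val_mul]
      ne_zero := fun x x' => Units.ne_zero _
      nd_left := fun x h => hndl x fun y => Units.ext (h y)
      nd_right := fun y h => hndr y fun x => Units.ext (h x)
      equiv := fun σ x x' => hgal σ x x' }
  have hCle : C ≤ D.Cm X V := by
    intro x hx
    obtain ⟨v, rfl⟩ := (hC x).1 hx
    exact ⟨v, rfl⟩
  have hz' : z ∈ D.ZZ X K (D.Cm X V) ⊤ := D.ZZ_mono le_rfl hCle le_rfl hz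
  obtain ⟨h1, h2⟩ := D.corD' hcc p hV hV' s F h0 hs hst hstep K K' hK hK' e0
    (fun x hx x' hx' => by
      have := hiso x hx x' hx'
      show ((e x x' : Qbˣ) : Qb) ^ e0 = 1
      rw [← Units.val_pow_eq_pow_val, this, Units.val_one])
    hfl hfl' (D.ZZ X K (D.Cm X V) ⊤) le_rfl
  refine ⟨(Bd V).relIndex (D.ZZ X K (D.Cm X V) ⊤), Nat.pos_of_ne_zero h1, h2, ?_⟩
  obtain ⟨v, hv⟩ := nsmul_mem_of_relIndex (W := Bd V) rfl hz'
  exact ⟨v, hv⟩

end Fermat.Agent.S15.H

end
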