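/-
S15, block APP: the cuspidal class `(0) - (∞)` is rational.
-/
import Fermat.Agent.S15.Red.Conc

set_option autoImplicit false
set_option linter.unusedSectionVars false

noncomputable section

namespace Fermat.Agent.S15.H

open AlgebraicCurve ModularCurve Fermat.Agent.Lib.RR Fermat.Agent.GAL Fermat.Agent.GAL.RED
  Fermat.Agent.S24 Fermat.Agent.S15.Red

variable {p : ℕ} [NeZero p]

theorem gal_smul_jF' (σ : GQ) : gal p σ • jF p = jF p := by
  apply Subtype.ext
  unfold gal
  rw [coe_arithmeticGalois_smul]
  exact coeffMap_coeffEmb σ jq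

theorem gal_smul_oo (σ : GQ) : gal p σ • oo p = oo p := S17.Unr.smul_oo p σ

/-- the cusp `0` is rational. -/
theorem gal_smul_zz (hp : p.Prime) (σ : GQ) : gal p σ • zz p = zz p := by
  have hC := cuspFacts p hp
  have h1 : (gal p σ • zz p).ord (jF p) < 0 := by
    have h := SemilinearAut.ord_smul (gal p σ) (zz p) (jF p)
    rw [gal_smul_jF'] at h
    rw [h, hC.zz_j]
    have : (0 : ℤ) < p := by exact_mod_cast hp.pos
    omega
  rcases hC.pole_j _ h1 with h | h
  · exfalso
    apply hC.ne
    have h2 : gal p σ • zz p = gal p σ • oo p := by rw [h, gal_smul_oo]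
    exact smul_left_cancel _ h2
  · exact h

/-- the cuspidal class is rational. -/
theorem cusp_mem_JQ (hp : p.Prime) : cusp p ∈ JQ p := by
  intro σ
  unfold cusp ptCls
  split_ifs with h
  · rw [galois_smul_pic0_def, SemilinearAut.pic0_smul_mk]
    congr 1
    apply Subtype.ext
    rw [SemilinearAut.coe_degZeroSMulHom]
    show gal p σ • ptDiv p (zz p) (oo p) = ptDiv p (zz p) (oo p)
    unfold ptDiv
    rw [smul_sub, SemilinearAut.smul_single, SemilinearAut.smul_single, gal_smul_zz hp,
      gal_smul_oo]
  · exact @smul_zero GQ (JZero p) _ _ σ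

end Fermat.Agent.S15.H

end
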