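/-
S15, route W, block APP: instantiation of the abstract data `Amb`, `Hk` (`H/Amb.lean`) with `J = JZero p`, and `CoreAll`.
Inputs: `H/Conc1` (Hecke on torsion), `H/Conc2` (Weil pairing, divisibility, unramifiedness, INVDIV), `LocN/Main` (block P),
`FMain` (block F, a hypothesis here), S17 (Mordell-Weil), `H/CorDStmt` (block D), the Frobenius density theorem.
-/
import Fermat.Agent.S15.H.CorDStmt
import Fermat.Agent.S15.H.CuspFix
import Fermat.Agent.S15.H.Conc1.Tors
import Fermat.Agent.S15.H.Conc2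
import Fermat.Agent.S15.LocN.Main
import Fermat.Agent.S15.W.SHyp
import Fermat.Agent.S17
import Fermat.Agent.Lib.FrobDensity.GALInterface

set_option autoImplicit false
set_option linter.unusedSectionVars false

noncomputable section

namespace Fermat.Agent.S15.H

open AlgebraicCurve ModularCurve Fermat.Agent.S24 Fermat.Agent.S15.Sel

/-- **CONTRACT OF BLOCK F** (`F.main`). -/
def FMain : Prop :=
  ∀ (N r k : ℕ) [NeZero N], r.Prime → ¬ r ∣ N → ∀ (A : ValuationSubring Qb), A.LiesOverPrime r →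
    ∀ (D : Divisor Qb (FN N)) (hD : D ∈ Divisor.degZero (K := Qb) (F := FN N)),
      (∀ s : GQ, S15.gal N s • D = D) → ∀ x1 : JZero N, r ^ k • x1 = Pic0.mk ⟨D, hD⟩ →
        ∀ z : GQ → Pic0.torsion Qb (FN N) (r ^ k), (∀ s, (z s : JZero N) = s • x1 - x1) →
          W.FlatCoc A z

/-- the context. -/
def ctx (P : Places) {r p : ℕ} (hr : r.Prime) (hp : p.Prime) (hrp : r ≠ p) (c : GQ)
    (hc : ∀ (z : Qb) (n : ℕ), 0 < n → z ^ n = 1 → c z = z⁻¹) : D.Ctx :=
  ⟨P, r, p, hr, hp, hrp, W.IsSEP (P.pl r), W.sHyp P hr, c, hc⟩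

section

variable {p : ℕ} [NeZero p]

/-- rational torsion is finite (Mordell-Weil). -/
theorem finite_ratTor (hp : p.Prime) (hp5 : 5 ≤ p) : Finite (ratTor (JZero p)) := by
  have hfg : ((JQ p).toIntSubmodule).FG := by
    have h1 := Fermat.Agent.S17.result p hp hp5
    rw [AddGroup.fg_iff_addSubgroup_fg] at h1
    rw [Submodule.fg_iff_addSubgroup_fg]
    exact h1
  have hle : (ratTor (JZero p)).toIntSubmodule ≤ (JQ p).toIntSubmodule := fun x hx => hx.1
  have hN : IsNoetherian ℤ (JQ p).toIntSubmodule := isNoetherian_of_fg_of_noetherian _ hfg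
  have hfg' : ((ratTor (JZero p)).toIntSubmodule).FG := by
    have h2 := (isNoetherian_submodule.1 hN) _ hle
    exact h2
  have : Module.Finite ℤ (ratTor (JZero p)).toIntSubmodule := Module.Finite.of_fg hfg'
  have ht : Module.IsTorsion ℤ (ratTor (JZero p)).toIntSubmodule := by
    rintro ⟨x, hx⟩
    obtain ⟨m, hm, hmx⟩ := hx.2
    refine ⟨⟨(m : ℤ), mem_nonZeroDivisors_of_ne_zero (by exact_mod_cast hm)⟩, ?_⟩
    apply Subtype.ext
    show (m : ℤ) • x = 0
    rw [natCast_zsmul, hmx]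
  have hfin : Finite (ratTor (JZero p)).toIntSubmodule := Module.finite_of_fg_torsion _ ht
  exact hfin

theorem not_dvd_of_prime_ne {a b : ℕ} (ha : a.Prime) (hb : b.Prime) (h : a ≠ b) : ¬ a ∣ b :=
  fun hd => h ((Nat.prime_dvd_prime_iff_eq ha hb).1 hd)

/-- **the ambient data for `J₀(p)`.** -/
def amb (hF : FMain) (P : Places) {r : ℕ} (hr : r.Prime) (hp : p.Prime) (hp5 : 5 ≤ p) (hrp : r ≠ p)
    (c : GQ) (hc : ∀ (z : Qb) (n : ℕ), 0 < n → z ^ n = 1 → c z = z⁻¹) (hcc : c * c = 1) :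
    Amb (ctx P hr hp hrp c hc) (JZero p) where
  sm := isSm_dd p
  div := divisible p
  fin := fun m hm => finite_tors p m hm
  finQ := finite_ratTor hp hp5
  ur := fun ℓ hℓ hℓr hℓp σ hσ k y h =>
    unram p (r ^ k) ℓ (pow_ne_zero _ hr.ne_zero) hℓ (not_dvd_of_prime_ne hℓ hp hℓp)
      (fun hd => not_dvd_of_prime_ne hℓ hr hℓr (hℓ.dvd_of_dvd_pow hd)) (P.pl ℓ) (P.lies ℓ hℓ) σ hσ y h
  e := fun m x y => S19.Weil.weil m x y
  e_add_left := fun m x x' y hx hx' hy =>
    S19.Weil.weil_add_left (mem_torsion_iff.2 hx) (mem_torsion_iff.2 hx') (mem_torsion_iff.2 hy)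
  e_add_right := fun m x y y' hx hy hy' =>
    S19.Weil.weil_add_right (mem_torsion_iff.2 hx) (mem_torsion_iff.2 hy) (mem_torsion_iff.2 hy')
  e_gal := fun m σ x y => ee_gal (N := p) (n := m) σ x y
  e_nd_left := fun k x hx h => ee_nondeg hr k hx fun y hy => by
    have := h y hy
    exact congrArg Units.val this
  e_nd_right := fun k y hy h => ee_nondeg hr k hy fun x hx => by
    have := h x hx
    rw [ee_swap]
    have h2 : ee p (r ^ k) x y = 1 := congrArg Units.val this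
    rw [h2, inv_one]
  K := fun m => LocN.Ktor p (P.pl p) m
  K_le := fun m x hx => LocN.Ktor_nsmul hx
  K_kum := fun m hm σ hσ y hy =>
    LocN.kummer_mem hp (by omega) (P.lies p hp) hm hσ y hy
  e0 := LocN.e0 p
  e0_ne := LocN.e0_ne_zero hp
  K_iso := fun k x hx y hy =>
    LocN.weil_pow_eq_one hp (by omega) (P.lies p hp)
      (Nat.Coprime.pow_left k ((Nat.coprime_primes hr hp).2 hrp)) hx hy
  flat := fun k x₁ hfix z hz => by
    obtain ⟨D, hD, hinv⟩ := invdiv p (r ^ k • x₁) hfix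
    have h1 : ∀ s : GQ, s • x₁ - x₁ ∈ Pic0.torsion Qb (FN p) (r ^ k) := fun s => by
      rw [← hz s]
      exact mem_torsion_iff.2 (z s).2
    have h2 := hF p r k hr (not_dvd_of_prime_ne hr hp hrp) (P.pl r) (P.lies r hr) D.1 D.2 hinv x₁
      hD.symm (fun s => ⟨s • x₁ - x₁, h1 s⟩) (fun s => rfl)
    let f : Pic0.torsion Qb (FN p) (r ^ k) →+ tor (JZero p) (r ^ k) :=
      { toFun := fun x => ⟨x.1, mem_torsion_iff.1 x.2⟩
        map_zero' := rfl
        map_add' := fun _ _ => rfl }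
    have h3 := h2.map f
    have h4 : (fun σ => f ⟨σ • x₁ - x₁, h1 σ⟩) = z := by
      funext σ
      exact Subtype.ext (hz σ).symm
    rw [h4] at h3
    exact h3
  cc_sq := hcc

/-- **the Hecke operators.** -/
def hk (P : Places) {r : ℕ} (hr : r.Prime) (hp : p.Prime) (hrp : r ≠ p)
    (c : GQ) (hc : ∀ (z : Qb) (n : ℕ), 0 < n → z ^ n = 1 → c z = z⁻¹) (S : Finset ℕ)
    (hrS : r ∈ S) (hpS : p ∈ S) : Hk (ctx P hr hp hrp c hc) (JZero p) S where
  hr := hrS
  hN := hpS
  T := heckeOperatorBar p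
  gal := fun q σ x => T_gal p q σ x
  comm := fun q q' hq hq' m hm x hx =>
    T_comm_tors p q q' (not_dvd_of_prime_ne q.2 hp fun h => hq (h ▸ hpS))
      (not_dvd_of_prime_ne q'.2 hp fun h => hq' (h ▸ hpS)) m hm x hx
  es := fun q hq A hA σ hσ k x hx =>
    ES_tors p r k hr.ne_zero q
      (fun hd => by
        rcases (Nat.Prime.dvd_mul q.2).1 hd with h | h
        · exact not_dvd_of_prime_ne q.2 hp (fun h' => hq (h' ▸ hpS)) h
        · exact not_dvd_of_prime_ne q.2 hr (fun h' => hq (h' ▸ hrS)) h)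
      A hA σ hσ x hx

end

/-- a choice of places. -/
theorem exists_places : Nonempty Places := by
  classical
  have h : ∀ ℓ : ℕ, ∃ A : ValuationSubring Qb, ℓ.Prime → A.LiesOverPrime ℓ := by
    intro ℓ
    by_cases hℓ : ℓ.Prime
    · obtain ⟨A, hA⟩ := Fermat.Agent.S13.exists_liesOverPrime_Qbar hℓ
      exact ⟨A, fun _ => hA⟩
    · exact ⟨⊤, fun h => absurd h hℓ⟩
  choose pl hpl using h
  exact ⟨⟨pl, hpl⟩⟩

/-- **CORE** from block F. -/
theorem coreAll_of (hF : FMain) : CoreAll := by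
  intro p _ r S hadm
  obtain ⟨hp, hp', hr, -, hord, hrp⟩ := hadm
  have hp5 : 5 ≤ p := by
    have h2' := hp.two_le
    have hp2 : p ≠ 2 := fun h => hp' (by simp [h])
    have hp3 : p ≠ 3 := fun h => hp' (by simp [h])
    by_contra hlt
    have h4 : p = 4 := by omega
    rw [h4] at hp
    exact absurd hp (by norm_num)
  obtain ⟨P⟩ := exists_places
  obtain ⟨c, hcc, hc⟩ := exists_cc
  set m := addOrderOf (cusp p) with hm
  let S' : Finset ℕ := insert r (insert p (S ∪ m.primeFactors))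
  have hrS : r ∈ S' := Finset.mem_insert_self _ _
  have hpS : p ∈ S' := Finset.mem_insert_of_mem (Finset.mem_insert_self _ _)
  obtain ⟨C, hC, h⟩ := core_abs corDStmt Fermat.Agent.Lib.FrobDensity.gal_frobeniusDensity
    (amb hF P hr hp hp5 hrp c hc hcc) (hk P hr hp hrp c hc S' hrS hpS)
  refine ⟨C, hC, fun k => ?_⟩
  obtain ⟨ε, hε, hfix, hdiv⟩ := h k
  refine ⟨ε, ?_, ⟨0, ?_⟩, hdiv⟩
  · refine Algebra.adjoin_mono ?_ hε
    rintro t ⟨q, hq, rfl⟩
    refine ⟨q, fun h => hq (h ▸ hpS), fun h => hq ?_, rfl⟩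
    exact Finset.mem_insert_of_mem (Finset.mem_insert_of_mem (Finset.mem_union_left _ h))
  · rw [mul_zero, sub_zero, one_smul]
    apply hfix
    intro q
    rw [Hk.η_apply]
    have hq : ¬ ((q.1 : ℕ)) ∣ p * m := by
      intro hd
      rcases (Nat.Prime.dvd_mul q.1.2).1 hd with h | h
      · exact not_dvd_of_prime_ne q.1.2 hp (fun h' => q.2 (h' ▸ hpS)) h
      · apply q.2
        refine Finset.mem_insert_of_mem (Finset.mem_insert_of_mem (Finset.mem_union_right _ ?_))
        exact Nat.mem_primeFactors.2 ⟨q.1.2, h, hord⟩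
    have := eisenstein_of_fixed p (cusp p) (cusp_mem_JQ hp) m hord (addOrderOf_nsmul_eq_zero _) q.1 hq
    show heckeOperatorBar p q.1 (cusp p) - _ = 0
    rw [this, sub_self]

end Fermat.Agent.S15.H

end
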