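/-
S15, route W: **CONTRACT CORE** = `CoreAll` (blocks D, F, P, H, APP assembled).
-/
import Fermat.Agent.S15.H.Inst
import Fermat.Agent.S15.F.Main

set_option autoImplicit false

namespace Fermat.Agent.S15.H

theorem fMain : FMain :=
  fun _ _ _ _ hr hrN A hA D hD hinv x1 hx1 z hz => F.main hr hrN A hA D hD hinv x1 hx1 z hz

/-- **CORE.** -/
theorem coreAll : CoreAll := coreAll_of fMain

end Fermat.Agent.S15.H
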