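import Fermat.Agent.S15.Z5.Main
import Fermat.Agent.S15.H.Conc1.Gal

/-!
# S15 / block H: the Hecke operators commute with the Galois action on `J₀(N)(Qbar)` (contract `HeckeGal`).

(thin wrapper around `H.T_gal` of `Conc1/Gal.lean`; the former content of this file had the same declaration names as `Conc1/Gal.lean`, which
would clash in the import closure of `S15.lean`.)
-/

set_option autoImplicit false

namespace Fermat.Agent.S15.H

/-- **CONTRACT `HeckeGal`.** -/
theorem heckeGal : HeckeGal := fun p _ q σ z => T_gal p q σ z

end Fermat.Agent.S15.H
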