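import Fermat.Agent.S15.Contracts
import Fermat.Agent.S15.Sel.Defs
import Fermat.Agent.S17.Unr.Main
import Fermat.Agent.S17.Unr.MinDiv
import Fermat.Agent.S19.ND.Main
import Fermat.Agent.S19.DIV.Export
import Fermat.Agent.GAL.Cyclo
import Fermat.Agent.S15.H.GSub
import Fermat.Agent.S15.D.Pair

/-!
# S15, block H, part CONC2 (helper60): concrete facts on `J = JZero N` in `GQ`-form

* `invdiv`       (6)  a `GQ`-fixed class is the class of a `GQ`-invariant divisor of degree `0`;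
* `divisible`    (7)  `J` is divisible;
* `ee`, `ee_*`   (8)  the Weil pairing with values in `Qb`, bimultiplicative, Galois equivariant, nondegenerate;
* `exists_cc`    (9)  a complex conjugation;
* `isSm_dd`, `unram`, `unram_tors`, `kummer_unram`  (10)  smoothness, unramifiedness outside `N m`.
-/

set_option autoImplicit false

noncomputable section

namespace Fermat.Agent.S15.H

open AlgebraicCurve ModularCurve Fermat.Agent.S24 Fermat.Agent.Lib.RR Fermat.Agent.GAL.RED
  Fermat.Agent.S17.Unr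

/-! ## (6) INVDIV -/

section abs

variable {K F : Type*} [Field K] [Field F] [Algebra K F] [Lib.RR.IsFF K F] [IsAlgClosed K]

/-- `S17.Unr.exists_fixed_rep` for a whole family of semilinear automorphisms at once. -/
theorem exists_fixed_rep_all (G : Set (SemilinearAut K F)) (P₀ : Place K F)
    (hP₀ : ∀ g ∈ G, g • P₀ = P₀) (x : Pic0 K F) (hx : ∀ g ∈ G, g • x = x) :
    ∃ E : Divisor.degZero (K := K) (F := F), Pic0.mk E = x ∧
      ∀ g ∈ G, g • (E : Divisor K F) = E := by
  obtain ⟨E₀, rfl⟩ := Pic0.mk_surjective x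
  obtain ⟨e, D, hD0, hD1, hDE⟩ := exists_effective_rep P₀ (E₀ : Divisor K F) E₀.2
  have hgE : ∀ g ∈ G, g • (E₀ : Divisor K F) - E₀ ∈ Divisor.principal (K := K) (F := F) := by
    intro g hg
    have hx := hx g hg
    rw [SemilinearAut.pic0_smul_mk] at hx
    have h1 := (QuotientAddGroup.eq (s := (Divisor.principal (K := K) (F := F)).addSubgroupOf
      (Divisor.degZero (K := K) (F := F)))).1 hx.symm
    rw [AddSubgroup.mem_addSubgroupOf] at h1
    have h2 : ((-E₀ + SemilinearAut.degZeroSMulHom g E₀ : Divisor.degZero (K := K) (F := F)) :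
        Divisor K F) = g • (E₀ : Divisor K F) - E₀ := by
      rw [AddSubgroup.coe_add, AddSubgroup.coe_neg, SemilinearAut.coe_degZeroSMulHom]
      abel
    rwa [h2] at h1
  have hgD0 : ∀ g : SemilinearAut K F, 0 ≤ g • D := by
    intro g v
    rw [SemilinearAut.divisor_smul_apply]
    exact hD0 _
  have hgpt : ∀ g ∈ G, g • (e • pt P₀) = e • pt P₀ := by
    intro g hg
    rw [smul_comm, SemilinearAut.smul_single, hP₀ g hg]
  have hgD : ∀ g ∈ G, g • D = D := by
    intro g hg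
    apply eq_of_principal_sub hD0 hD1 (hgD0 g)
    have h1 := SemilinearAut.smul_mem_principal g hDE
    have h2 : g • D - D = g • (D - e • pt P₀ - (E₀ : Divisor K F)) -
        (D - e • pt P₀ - (E₀ : Divisor K F)) + (g • (E₀ : Divisor K F) - E₀) := by
      rw [smul_sub, smul_sub, hgpt g hg]
      abel
    rw [h2]
    exact add_mem (sub_mem h1 hDE) (hgE g hg)
  have hdeg : D - e • pt P₀ ∈ Divisor.degZero (K := K) (F := F) := by
    obtain ⟨f, hf, hfD⟩ := hDE
    have h1 : D - e • pt P₀ - (E₀ : Divisor K F) = divOf f := by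
      ext v
      rw [hfD v, divOf_apply]
    have h2 : D - e • pt P₀ = divOf f + (E₀ : Divisor K F) := by rw [← h1]; abel
    rw [Divisor.mem_degZero, h2, map_add, degree_divOf, zero_add]
    exact E₀.2
  refine ⟨⟨D - e • pt P₀, hdeg⟩, ?_, ?_⟩
  · refine (QuotientAddGroup.eq (s := (Divisor.principal (K := K) (F := F)).addSubgroupOf
      (Divisor.degZero (K := K) (F := F)))).2 ?_
    rw [AddSubgroup.mem_addSubgroupOf]
    have h2 : ((-(⟨D - e • pt P₀, hdeg⟩ : Divisor.degZero (K := K) (F := F)) + E₀ :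
        Divisor.degZero (K := K) (F := F)) : Divisor K F) =
        -(D - e • pt P₀ - (E₀ : Divisor K F)) := by
      rw [AddSubgroup.coe_add, AddSubgroup.coe_neg]
      show -(D - e • pt P₀) + (E₀ : Divisor K F) = _
      generalize e • pt P₀ = X
      abel
    rw [h2]
    exact neg_mem hDE
  · intro g hg
    show g • (D - e • pt P₀) = D - e • pt P₀
    rw [smul_sub, hgD g hg, hgpt g hg]

end abs

/-- **(6) INVDIV.** -/
theorem invdiv (N : ℕ) [NeZero N] (x : JZero N) (hx : ∀ s : GQ, s • x = x) :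
    ∃ D : Divisor.degZero (K := Kbar) (F := FN N), Pic0.mk D = x ∧
      ∀ s : GQ, gal N s • (D : Divisor Kbar (FN N)) = D := by
  have : Lib.RR.IsFF Kbar (FN N) := Fermat.Agent.GAL.Desc.isFF_FF_Kbar N
  obtain ⟨E, h1, h2⟩ := exists_fixed_rep_all (K := Kbar) (F := FN N) (Set.range (gal N)) (oo N)
    (by rintro _ ⟨s, rfl⟩; exact smul_oo N s) x
    (by rintro _ ⟨s, rfl⟩; exact hx s)
  exact ⟨E, h1, fun s => h2 _ ⟨s, rfl⟩⟩

/-! ## (7) divisibility -/

/-- **(7)** `J₀(N)(Qbar)` is divisible. -/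
theorem divisible (N : ℕ) [NeZero N] (m : ℕ) (hm : m ≠ 0) (x : JZero N) :
    ∃ y : JZero N, m • y = x := by
  have : Lib.RR.IsFF Kbar (FN N) := Fermat.Agent.GAL.Desc.isFF_FF_Kbar N
  induction m using Nat.recOnMul generalizing x with
  | zero => exact absurd rfl hm
  | one => exact ⟨x, one_nsmul x⟩
  | prime p hp => exact S19.DIV.divisible Kbar (FN N) p hp x
  | mul a b iha ihb =>
    obtain ⟨y, hy⟩ := iha (fun h => hm (by rw [h, zero_mul])) x
    obtain ⟨z, hz⟩ := ihb (fun h => hm (by rw [h, mul_zero])) y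
    exact ⟨z, by rw [mul_nsmul', hz, hy]⟩

/-! ## (9) complex conjugation -/

/-- **(9)** a complex conjugation, in the form of `D.Ctx.hcc`. -/
theorem exists_cc : ∃ cc : GQ, cc * cc = 1 ∧
    ∀ (z : Kbar) (n : ℕ), 0 < n → z ^ n = 1 → cc z = z⁻¹ := by
  obtain ⟨c, h1, h2⟩ := Fermat.Agent.GAL.Cyclo.exists_conj_inv
  exact ⟨c, h1, fun z n hn hz => h2 n z hn.ne' hz⟩

/-! ## (10) smoothness, unramifiedness -/

/-- an open subgroup `Gal(Qbar / M)` contains the pointwise stabiliser of a finite set. -/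
theorem exists_finset_of_openFix {p : GQ → Prop} (h : OpenFix p) :
    ∃ s : Finset Kbar, ∀ σ : GQ, (∀ z ∈ s, σ z = z) → p σ := by
  classical
  obtain ⟨M, hM, hσ⟩ := h
  have hfg : M.toSubalgebra.FG :=
    Subalgebra.fg_of_fg_toSubmodule ((Module.Finite.iff_fg (N := M.toSubalgebra.toSubmodule)).1 hM)
  obtain ⟨t, ht⟩ := hfg
  refine ⟨t, fun σ hs => hσ σ ?_⟩
  rw [IntermediateField.mem_fixingSubgroup_iff]
  intro x hx
  have hle : Algebra.adjoin ℚ (t : Set Kbar) ≤
      AlgHom.equalizer (σ : Kbar →ₐ[ℚ] Kbar) (AlgHom.id ℚ Kbar) :=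
    Algebra.adjoin_le fun z hz => hs z hz
  have hx' : x ∈ Algebra.adjoin ℚ (t : Set Kbar) := by rw [ht]; exact hx
  exact hle hx'

/-- **(10a)** the action on `J₀(N)(Qbar)` is smooth. -/
theorem isSm_dd (N : ℕ) [NeZero N] (x : JZero N) : Sel.IsSm (Sel.dd x) := by
  obtain ⟨s, hs⟩ := exists_finset_of_openFix (p := fun σ => σ • x = x) (stab N x)
  exact ⟨s, fun σ hσ => by rw [Sel.dd_apply, hs σ hσ, sub_self]⟩

/-- **(10b)** division points are unramified outside `N m`. -/
theorem unram (N m ℓ : ℕ) [NeZero N] (hm : m ≠ 0) (hℓ : ℓ.Prime) (hℓN : ¬ ℓ ∣ N)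
    (hℓm : ¬ ℓ ∣ m) (A : ValuationSubring Kbar) (hA : A.LiesOverPrime ℓ)
    (s : GQ) (hs : s ∈ Sel.Ine A) (y : JZero N) (h : s • (m • y) = m • y) : s • y = y :=
  unr_general N m ℓ (Nat.pos_of_ne_zero hm) hℓ hℓN hℓm A hA s hs y h

/-- **(10c)** the torsion is unramified outside `N m`. -/
theorem unram_tors (N m ℓ : ℕ) [NeZero N] (hm : m ≠ 0) (hℓ : ℓ.Prime) (hℓN : ¬ ℓ ∣ N)
    (hℓm : ¬ ℓ ∣ m) (A : ValuationSubring Kbar) (hA : A.LiesOverPrime ℓ)
    (s : GQ) (hs : s ∈ Sel.Ine A) (y : JZero N) (h : m • y = 0) : s • y = y :=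
  unram N m ℓ hm hℓ hℓN hℓm A hA s hs y (by rw [h]; exact @smul_zero GQ (JZero N) _ _ s)

/-- **(10d)** the Kummer cocycle of a rational point is unramified outside `N m`. -/
theorem kummer_unram (N m ℓ : ℕ) [NeZero N] (hm : m ≠ 0) (hℓ : ℓ.Prime) (hℓN : ¬ ℓ ∣ N)
    (hℓm : ¬ ℓ ∣ m) (A : ValuationSubring Kbar) (hA : A.LiesOverPrime ℓ)
    (s : GQ) (hs : s ∈ Sel.Ine A) (y : JZero N) (h : ∀ t : GQ, t • (m • y) = m • y) :
    Sel.dd y s = 0 := by
  rw [Sel.dd_apply, unram N m ℓ hm hℓ hℓN hℓm A hA s hs y (h s), sub_self]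

/-! ## (8) the Weil pairing in `GQ`-form -/

/-- `J₀(N)[n]` as a bundled `GQ`-stable subgroup. -/
def tors (N n : ℕ) : GSub (JZero N) where
  S :=
    { carrier := {x | n • x = 0}
      zero_mem' := smul_zero n
      add_mem' := fun {a b} ha hb => by
        show n • (a + b) = 0
        rw [nsmul_add, show n • a = 0 from ha, show n • b = 0 from hb, add_zero]
      neg_mem' := fun {a} ha => by
        show n • (-a) = 0
        rw [neg_nsmul, show n • a = 0 from ha, neg_zero] }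
  st := fun σ x hx => by
    show n • (σ • x) = 0
    rw [smul_comm, show n • x = 0 from hx]
    exact @smul_zero GQ (JZero N) _ _ σ

theorem mem_tors {N n : ℕ} {x : JZero N} : x ∈ (tors N n).S ↔ n • x = 0 := Iff.rfl

theorem mem_torsion_iff {N n : ℕ} {x : JZero N} :
    x ∈ Pic0.torsion Kbar (FN N) n ↔ n • x = 0 := by
  rw [Pic0.mem_torsion, natCast_zsmul]

/-- the Weil pairing `e_n` on `J₀(N)`, with values in `Qb` (junk value `1` outside `J[n]`). -/
def ee (N : ℕ) [NeZero N] (n : ℕ) (x y : JZero N) : Kbar :=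
  haveI : Lib.RR.IsFF Kbar (FN N) := Fermat.Agent.GAL.Desc.isFF_FF_Kbar N
  ((S19.Weil.weil n x y : Kbarˣ) : Kbar)

section ee

variable {N : ℕ} [NeZero N] {n : ℕ}

theorem ee_ne_zero (x y : JZero N) : ee N n x y ≠ 0 := Units.ne_zero _

theorem ee_add_left {x x' y : JZero N} (hx : n • x = 0) (hx' : n • x' = 0) (hy : n • y = 0) :
    ee N n (x + x') y = ee N n x y * ee N n x' y := by
  have : Lib.RR.IsFF Kbar (FN N) := Fermat.Agent.GAL.Desc.isFF_FF_Kbar N
  unfold ee
  rw [S19.Weil.weil_add_left (mem_torsion_iff.2 hx) (mem_torsion_iff.2 hx') (mem_torsion_iff.2 hy),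
    Units.val_mul]

theorem ee_add_right {x y y' : JZero N} (hx : n • x = 0) (hy : n • y = 0) (hy' : n • y' = 0) :
    ee N n x (y + y') = ee N n x y * ee N n x y' := by
  have : Lib.RR.IsFF Kbar (FN N) := Fermat.Agent.GAL.Desc.isFF_FF_Kbar N
  unfold ee
  rw [S19.Weil.weil_add_right (mem_torsion_iff.2 hx) (mem_torsion_iff.2 hy) (mem_torsion_iff.2 hy'),
    Units.val_mul]

theorem ee_swap (x y : JZero N) : ee N n y x = (ee N n x y)⁻¹ := by
  have : Lib.RR.IsFF Kbar (FN N) := Fermat.Agent.GAL.Desc.isFF_FF_Kbar N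
  unfold ee
  rw [S19.Weil.weil_swap, Units.val_inv_eq_inv_val]

theorem ee_pow (x y : JZero N) : ee N n x y ^ n = 1 := by
  have : Lib.RR.IsFF Kbar (FN N) := Fermat.Agent.GAL.Desc.isFF_FF_Kbar N
  unfold ee
  rw [← Units.val_pow_eq_pow_val, S19.Weil.weil_pow, Units.val_one]

theorem ee_zero_left (y : JZero N) : ee N n 0 y = 1 := by
  have : Lib.RR.IsFF Kbar (FN N) := Fermat.Agent.GAL.Desc.isFF_FF_Kbar N
  unfold ee
  rw [S19.Weil.weil_zero_left, Units.val_one]

theorem ee_zero_right (x : JZero N) : ee N n x 0 = 1 := by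
  have : Lib.RR.IsFF Kbar (FN N) := Fermat.Agent.GAL.Desc.isFF_FF_Kbar N
  unfold ee
  rw [S19.Weil.weil_zero_right, Units.val_one]

/-- Galois equivariance. -/
theorem ee_gal (s : GQ) (x y : JZero N) : ee N n (s • x) (s • y) = s (ee N n x y) := by
  have : Lib.RR.IsFF Kbar (FN N) := Fermat.Agent.GAL.Desc.isFF_FF_Kbar N
  unfold ee
  rw [galois_smul_pic0_def, galois_smul_pic0_def, S19.Weil.weil_smul, Units.coe_map,
    baseAut_arithmeticGalois]
  rfl

/-- nondegeneracy at prime power level. -/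
theorem ee_nondeg {r : ℕ} (hr : r.Prime) (k : ℕ) {x : JZero N} (hx : r ^ k • x = 0)
    (h : ∀ y : JZero N, r ^ k • y = 0 → ee N (r ^ k) x y = 1) : x = 0 := by
  have : Lib.RR.IsFF Kbar (FN N) := Fermat.Agent.GAL.Desc.isFF_FF_Kbar N
  refine S19.ND.weil_separates Kbar (FN N) S19.DIV.divStatement r hr k (mem_torsion_iff.2 hx)
    (zero_mem _) fun y hy => ?_
  rw [S19.Weil.weil_zero_left]
  exact Units.ext (h y (mem_torsion_iff.1 hy))

/-- compatibility of levels (left). -/
theorem ee_mul_left {a b : ℕ} {x y : JZero N} (hx : (a * b) • x = 0) (hy : b • y = 0) :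
    ee N (a * b) x y = ee N b (a • x) y := by
  have : Lib.RR.IsFF Kbar (FN N) := Fermat.Agent.GAL.Desc.isFF_FF_Kbar N
  unfold ee
  rw [S19.ND.weil_mul_left (mem_torsion_iff.2 hx) (mem_torsion_iff.2 hy)]

end ee

/-- **(8)** the Weil pairing as a perfect equivariant pairing on the finite `GQ`-module `J[r ^ k]`. -/
def weilPairing (N : ℕ) [NeZero N] {r : ℕ} (hr : r.Prime) (k : ℕ) :
    D.Pairing (tors N (r ^ k)).S (tors N (r ^ k)).S where
  e := fun x y => ee N (r ^ k) x y
  add_left := fun x y x' => ee_add_left x.2 y.2 x'.2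
  add_right := fun x x' y' => ee_add_right x.2 x'.2 y'.2
  ne_zero := fun x x' => ee_ne_zero _ _
  nd_left := fun x h => Subtype.ext (ee_nondeg hr k x.2 fun y hy => h ⟨y, hy⟩)
  nd_right := fun x h => Subtype.ext (ee_nondeg hr k x.2 fun y hy => by
    rw [ee_swap, h ⟨y, hy⟩, inv_one])
  equiv := fun σ x x' => ee_gal σ _ _

@[simp] theorem weilPairing_e (N : ℕ) [NeZero N] {r : ℕ} (hr : r.Prime) (k : ℕ)
    (x y : (tors N (r ^ k)).S) : (weilPairing N hr k).e x y = ee N (r ^ k) x y := rfl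

end Fermat.Agent.S15.H

end
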