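import Fermat.Agent.S15.Contracts
import Fermat.Agent.S37.Semilin
import Fermat.Agent.GAL.FF.Corollaries
import Fermat.Agent.Lib.RR.Main

/-!
# S15 / block H, leaf INVDIV: every Galois fixed class in `J₀(p)` is the class of a Galois invariant divisor.

Abstract form: `K` algebraically closed, `Γ` a set of semilinear automorphisms of `F` fixing a place `P₀`, `D₁` a divisor of degree `0`
whose class is fixed by `Γ`.  Let `n` be minimal with `L(D₁ + n P₀) ≠ 0`; this space has dimension one, so there is a unique effective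
divisor `E ∼ D₁ + n P₀`, which is therefore `Γ`-invariant; `D := E - n P₀`.
-/

set_option autoImplicit false
set_option linter.unusedSectionVars false
set_option linter.style.haveILetI false

namespace Fermat.Agent.S15.H

open AlgebraicCurve ModularCurve Fermat.Agent.Lib.RR Fermat.Agent.S24 Fermat.Agent.S37

section Abs

variable {K F : Type*} [Field K] [IsAlgClosed K] [Field F] [Algebra K F] [Lib.RR.IsFF K F]

/-- two nonzero elements of a one dimensional `L(D)` have the same divisor. -/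
theorem divOf_eq_of_ell_eq_one {D : Divisor K F} (h1 : ell D = 1) {f f' : F} (hf : f ≠ 0)
    (hf' : f' ≠ 0) (hfD : f ∈ riemannRochSpace D) (hfD' : f' ∈ riemannRochSpace D) :
    divOf (K := K) f' = divOf f := by
  have hne : (⟨f, hfD⟩ : riemannRochSpace D) ≠ 0 := fun h => hf (congrArg Subtype.val h)
  obtain ⟨c, hc⟩ := (finrank_eq_one_iff_of_nonzero' (⟨f, hfD⟩ : riemannRochSpace D) hne).1 h1
    ⟨f', hfD'⟩
  have hc' : c • f = f' := congrArg Subtype.val hc
  have hc0 : c ≠ 0 := by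
    rintro rfl
    rw [zero_smul] at hc'
    exact hf' hc'.symm
  rw [← hc', Algebra.smul_def, divOf_mul ((map_ne_zero _).2 hc0) hf, divOf_algebraMap, zero_add]

/-- INVDIV, abstract form. -/
theorem exists_invariant_rep (Γ : Set (SemilinearAut K F)) (P₀ : Place K F)
    (hP₀ : ∀ g ∈ Γ, g • P₀ = P₀) (D₁ : Divisor K F) (hdeg : Divisor.degree D₁ = 0)
    (hD₁ : ∀ g ∈ Γ, ∃ u : F, u ≠ 0 ∧ g • D₁ = D₁ + divOf u) :
    ∃ f : F, f ≠ 0 ∧ ∀ g ∈ Γ, g • (D₁ + divOf f) = D₁ + divOf f := by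
  classical
  have hdP : P₀.deg = 1 := Fermat.Agent.GAL.FF.Cor.deg_eq_one_of_isAlgClosed P₀
  have hdeg' : ∀ n : ℕ, Divisor.degree (D₁ + n • pt P₀) = n := by
    intro n
    rw [map_add, hdeg, map_nsmul, degree_pt, hdP]
    simp
  have hex : ∃ n : ℕ, 0 < ell (D₁ + n • pt P₀) := by
    refine ⟨genusFF K F, ?_⟩
    obtain ⟨f, hf, hfD⟩ := exists_effective (D := D₁ + (genusFF K F) • pt P₀)
      (by rw [hdeg'])
    exact ell_pos_iff.2 ⟨f, hf, mem_L_iff.2 (Or.inr hfD)⟩
  set n := Nat.find hex with hn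
  have hpos : 0 < ell (D₁ + n • pt P₀) := Nat.find_spec hex
  have hone : ell (D₁ + n • pt P₀) = 1 := by
    apply le_antisymm _ hpos
    rcases Nat.eq_zero_or_pos n with h0 | h0
    · have h1 := ell_le_degree_add (D := D₁ + n • pt P₀) (by rw [hdeg']; positivity)
      rw [hdeg', h0, ell_zero] at h1
      rw [h0]
      have : (ell (D₁ + 0 • pt P₀) : ℤ) ≤ 1 := by simpa using h1
      exact_mod_cast this
    · obtain ⟨m, hm⟩ : ∃ m, n = m + 1 := ⟨n - 1, by omega⟩
      have h1 : ¬ 0 < ell (D₁ + m • pt P₀) := Nat.find_min hex (by omega)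
      have h2 := ell_add_pt_le (D₁ + m • pt P₀) P₀
      rw [hdP, add_assoc, ← succ_nsmul, ← hm] at h2
      omega
  obtain ⟨f, hf, hfD⟩ := ell_pos_iff.1 hpos
  refine ⟨f, hf, fun g hg => ?_⟩
  obtain ⟨u, hu, hgD⟩ := hD₁ g hg
  have hgf : g • f ≠ 0 := by
    rw [Ne, smul_eq_zero_iff_eq]
    exact hf
  -- `u * g f ∈ L(D₁ + n P₀)`
  have h1 : g • f ∈ riemannRochSpace (g • (D₁ + n • pt P₀)) := (smul_mem_L_iff g _ f).2 hfD
  have h2 : g • (D₁ + n • pt P₀) = (D₁ + n • pt P₀) + divOf u := by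
    rw [smul_add, hgD, smul_comm, SemilinearAut.smul_single, hP₀ g hg]
    abel
  have h3 : u * g • f ∈ riemannRochSpace (D₁ + n • pt P₀) := by
    rw [h2] at h1
    rcases mem_L_iff.1 h1 with h | h
    · exact absurd h hgf
    · refine mem_L_iff.2 (Or.inr ?_)
      rw [divOf_mul hu hgf]
      have e : divOf (K := K) u + divOf (g • f) + (D₁ + n • pt P₀) =
          divOf (g • f) + (D₁ + n • pt P₀ + divOf u) := by abel
      rw [e]
      exact h
  have h4 := divOf_eq_of_ell_eq_one hone hf (mul_ne_zero hu hgf) hfD h3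
  rw [divOf_mul hu hgf] at h4
  rw [smul_add, hgD, ← divOf_smul, add_assoc, h4]

end Abs

/-- **INVDIV**: every Galois fixed class is the class of a Galois invariant divisor. -/
theorem exists_invariant_divisor (p : ℕ) [NeZero p] (z : JZero p) (hz : z ∈ JQ p) :
    ∃ D : Divisor.degZero (K := Kbar) (F := FN p), Pic0.mk D = z ∧
      ∀ σ : GQ, gal p σ • (D : Divisor Kbar (FN p)) = D := by
  haveI : Lib.RR.IsFF Kbar (FN p) := GAL.Desc.isFF_FF_Kbar p
  obtain ⟨D₁, rfl⟩ := Pic0.mk_surjective z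
  have hD₁ : ∀ g ∈ Set.range (gal p), ∃ u : FN p, u ≠ 0 ∧
      g • (D₁ : Divisor Kbar (FN p)) = (D₁ : Divisor Kbar (FN p)) + divOf u := by
    rintro _ ⟨σ, rfl⟩
    have h1 : σ • Pic0.mk D₁ = Pic0.mk D₁ := hz σ
    rw [galois_smul_pic0_def, SemilinearAut.pic0_smul_mk] at h1
    have h2 := (QuotientAddGroup.eq (s := (Divisor.principal (K := Kbar) (F := FN p)).addSubgroupOf
      (Divisor.degZero (K := Kbar) (F := FN p)))).1 h1.symm
    rw [AddSubgroup.mem_addSubgroupOf] at h2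
    obtain ⟨u, hu, hDu⟩ := h2
    refine ⟨u, hu, ?_⟩
    have h3 : divOf (K := Kbar) u = -(D₁ : Divisor Kbar (FN p)) + gal p σ • (D₁ : Divisor Kbar (FN p)) := by
      ext v
      rw [divOf_apply, ← hDu v]
      rfl
    rw [h3]
    abel
  obtain ⟨f, hf, hinv⟩ := exists_invariant_rep (Set.range (gal p)) (oo p)
    (by rintro _ ⟨σ, rfl⟩; exact S17.Unr.smul_oo p σ) (D₁ : Divisor Kbar (FN p))
    (Divisor.mem_degZero.1 D₁.2) hD₁
  have hmem : (D₁ : Divisor Kbar (FN p)) + divOf f ∈ Divisor.degZero (K := Kbar) (F := FN p) := by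
    rw [Divisor.mem_degZero, map_add, degree_divOf, add_zero]
    exact Divisor.mem_degZero.1 D₁.2
  refine ⟨⟨(D₁ : Divisor Kbar (FN p)) + divOf f, hmem⟩, ?_, fun σ => hinv _ ⟨σ, rfl⟩⟩
  refine (QuotientAddGroup.eq (s := (Divisor.principal (K := Kbar) (F := FN p)).addSubgroupOf
      (Divisor.degZero (K := Kbar) (F := FN p)))).2 ?_
  rw [AddSubgroup.mem_addSubgroupOf]
  refine ⟨f⁻¹, inv_ne_zero hf, fun v => ?_⟩
  rw [Place.ord_inv, ← divOf_apply (K := Kbar) f v]
  simp

end Fermat.Agent.S15.H
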